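import Fermat.Agent.P2.Theta.Transfer

/-!
# Transfer of Hecke relations: version with involutions

Same as `Transfer.lean`; at the primes `q ∈ Q'` only the relation `U_q² = 1` is imposed.
-/

set_option autoImplicit false

set_option linter.unusedSectionVars false

open UpperHalfPlane CongruenceSubgroup ModularFormClass ModularCurve

noncomputable section

namespace Fermat.Agent.P2.Theta

variable {M : ℕ} [NeZero M] {V : Type*} [AddCommGroup V] [Module HeckeAlg V] {b : ℕ → V →+ ℂ}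

/-- `U_q g` is represented by `W v` if `g` is represented by `v`. -/
theorem qCoeff_heckeU_of_rep {g : CuspForm (Gamma0 M) 2} {v : V} {q : ℕ} (hq : q.Prime)
    (hqM : q ∣ M) (W : V →+ V) (hW : ∀ n : ℕ, 1 ≤ n → ∀ v, b n (W v) = b (n * q) v)
    (hg : ∀ n : ℕ, 1 ≤ n → qCoeff g n = b n v) :
    ∀ n : ℕ, 1 ≤ n → qCoeff (CuspForm.heckeULin 2 hqM g) n = b n (W v) := by
  intro n hn
  rw [HeckeDuality.qc_heckeULin hq hqM, hg _ (Nat.mul_pos hn hq.pos), hW n hn]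

theorem heckeAlg_natCast_add_one_smul (l : ℕ) (w : V) :
    ((l : HeckeAlg) + 1) • w = (l + 1) • w := by
  rw [add_smul, one_smul, Nat.cast_smul_eq_nsmul, add_nsmul, one_nsmul]

/-- an operator commuting with `t_l` commutes with `t_l - (l+1)`. -/
theorem comm_sub (W : V →+ V) (l : Nat.Primes)
    (hcomm : ∀ v, W (heckeGen l • v) = heckeGen l • W v) (v : V) :
    W ((heckeGen l - ((l : ℕ) + 1 : HeckeAlg)) • v) =
      (heckeGen l - ((l : ℕ) + 1 : HeckeAlg)) • W v := by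
  rw [sub_smul, map_sub, hcomm, heckeAlg_natCast_add_one_smul, map_nsmul, sub_smul,
    heckeAlg_natCast_add_one_smul]

/-- **Transfer theorem** with involutions at the primes of `Q'`. -/
theorem IsBrandt.transfer_kills₂ (hb : IsBrandt M b) (hM : Squarefree M)
    (Q Q' : Finset ℕ) (hQM : ∀ q ∈ Q, q ∣ M) (hQp : ∀ q ∈ Q, q.Prime)
    (hQM' : ∀ q ∈ Q', q ∣ M) (hQp' : ∀ q ∈ Q', q.Prime) (ε : ℕ → ℤ)
    (W : ℕ → V →+ V)
    (hW : ∀ q ∈ Q ∪ Q', ∀ n : ℕ, 1 ≤ n → ∀ v, b n (W q v) = b (n * q) v)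
    (hcomm : ∀ q ∈ Q ∪ Q', ∀ l : Nat.Primes, ¬ (l : ℕ) ∣ M → ∀ v, W q (heckeGen l • v) =
      heckeGen l • W q v)
    (hinv : ∀ q ∈ Q', ∀ v, W q (W q v) = v)
    (x : HeckeAlg) (hx : x ∈ anem M)
    (hkill : ∀ f : CuspForm (Gamma0 M) 2,
      (∀ (q : ℕ) (hq : q ∈ Q), CuspForm.heckeULin 2 (hQM q hq) f = (ε q : ℂ) • f) →
      (∀ (q : ℕ) (hq : q ∈ Q'), CuspForm.heckeULin 2 (hQM' q hq)
        (CuspForm.heckeULin 2 (hQM' q hq) f) = f) →
      ((CuspForm.heckeEvalForms M 2 x : CuspForm.heckeAlgebra M 2 ∅) :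
        Module.End ℂ (CuspForm (Gamma0 M) 2)) f = 0)
    (l : Nat.Primes) (hl : ¬ (l : ℕ) ∣ M) (v : V) (hv : ∀ q ∈ Q, W q v = ε q • v)
    (n : ℕ) (hn : 1 ≤ n) :
    b n ((x * (heckeGen l - ((l : ℕ) + 1 : HeckeAlg))) • v) = 0 := by
  classical
  rw [anem_eq_supported] at hx
  obtain ⟨g, hg⟩ := hb.exists_cusp hM l hl v
  rw [mul_smul, ← hb.qCoeff_eval x hx g _ hg n hn, hkill g, HeckeDuality.qc_zero]
  · intro q hq
    have hq' : q ∈ Q ∪ Q' := Finset.mem_union_left _ hq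
    have h1 := qCoeff_heckeU_of_rep (hQp q hq) (hQM q hq) (W q) (hW q hq') hg
    apply HeckeDuality.ext_of_qc
    intro m
    rcases Nat.eq_zero_or_pos m with rfl | hm
    · rw [HeckeDuality.qc_apply_zero, HeckeDuality.qc_apply_zero]
    · rw [HeckeDuality.qc_smul, h1 m hm, hg m hm, comm_sub (W q) l (hcomm q hq' l hl), hv q hq,
        smul_comm, map_zsmul, zsmul_eq_mul]
  · intro q hq
    have hq' : q ∈ Q ∪ Q' := Finset.mem_union_right _ hq
    have h1 := qCoeff_heckeU_of_rep (hQp' q hq) (hQM' q hq) (W q) (hW q hq') hg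
    have h2 := qCoeff_heckeU_of_rep (hQp' q hq) (hQM' q hq) (W q) (hW q hq') h1
    apply HeckeDuality.ext_of_qc
    intro m
    rcases Nat.eq_zero_or_pos m with rfl | hm
    · rw [HeckeDuality.qc_apply_zero, HeckeDuality.qc_apply_zero]
    · rw [h2 m hm, hinv q hq, hg m hm]

/-- **Transfer theorem**, in the notation of `P2/Defs.lean` (`U_q = ε_q` for `q ∈ Q` and
`U_2² = 1`). -/
theorem IsBrandt.transfer_kills_sign (hb : IsBrandt M b) (hM : Squarefree M) (h2 : 2 ∣ M)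
    (Q : Finset ℕ) (hQM : ∀ q ∈ Q, q ∣ M) (hQp : ∀ q ∈ Q, q.Prime) (ε : ℕ → ℤ)
    (W : ℕ → V →+ V)
    (hW : ∀ q ∈ Q, ∀ n : ℕ, 1 ≤ n → ∀ v, b n (W q v) = b (n * q) v)
    (hW2 : ∀ n : ℕ, 1 ≤ n → ∀ v, b n (W 2 v) = b (n * 2) v)
    (hcomm : ∀ q ∈ Q, ∀ l : Nat.Primes, ¬ (l : ℕ) ∣ M → ∀ v, W q (heckeGen l • v) =
      heckeGen l • W q v)
    (hcomm2 : ∀ l : Nat.Primes, ¬ (l : ℕ) ∣ M → ∀ v, W 2 (heckeGen l • v) =
      heckeGen l • W 2 v)
    (hinv : ∀ v, W 2 (W 2 v) = v)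
    (x : HeckeAlg) (hx : x ∈ anem M) (hkill : Kills M Q ε x)
    (l : Nat.Primes) (hl : ¬ (l : ℕ) ∣ M) (v : V) (hv : ∀ q ∈ Q, W q v = ε q • v)
    (n : ℕ) (hn : 1 ≤ n) :
    b n ((x * (heckeGen l - ((l : ℕ) + 1 : HeckeAlg))) • v) = 0 := by
  classical
  refine hb.transfer_kills₂ hM Q {2} hQM hQp (by simpa using h2)
    (by simpa using Nat.prime_two) ε W ?_ ?_ (by simpa using hinv) x hx ?_ l hl v hv n hn
  · intro q hq
    rcases Finset.mem_union.mp hq with hq | hq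
    · exact hW q hq
    · rw [Finset.mem_singleton.mp hq]; exact hW2
  · intro q hq
    rcases Finset.mem_union.mp hq with hq | hq
    · exact hcomm q hq
    · rw [Finset.mem_singleton.mp hq]; exact hcomm2
  · intro f hf hf2
    refine hkill f ⟨fun q hq => ?_, ?_⟩
    · rw [CuspForm.heckeEvalForms_heckeGen_of_dvd (hQM q hq)]
      exact hf q hq
    · have h3 := hf2 2 (Finset.mem_singleton_self 2)
      have h4 : ∀ q : Nat.Primes, (q : ℕ) = 2 → ∀ hq : (q : ℕ) ∣ M,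
          ((CuspForm.heckeEvalForms M 2 (heckeGen q * heckeGen q) :
            CuspForm.heckeAlgebra M 2 ∅) : Module.End ℂ (CuspForm (Gamma0 M) 2)) f =
            CuspForm.heckeULin 2 hq (CuspForm.heckeULin 2 hq f) := by
        intro q hq2 hq
        rw [map_mul, CuspForm.heckeEvalForms_heckeGen_of_dvd hq]
        rfl
      exact (h4 ⟨2, Nat.prime_two⟩ rfl h2).trans h3

end Fermat.Agent.P2.Theta
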