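import Fermat.Agent.P2.Theta.Inv
import Fermat.Prelude.Def_FLTPrelim_Modularity

/-!
# Theta series as elements of `M₂(Γ₀(M))`
-/

set_option autoImplicit false

open Matrix Complex Fermat.Agent.LT.I UpperHalfPlane Filter Topology CongruenceSubgroup
  Matrix.SpecialLinearGroup
open scoped Real MatrixGroups ModularForm Manifold

noncomputable section

namespace Fermat.Agent.P2.Theta

variable {A A' : Matrix (Fin 4) (Fin 4) ℤ} {M : ℕ}

theorem qZ_nonneg (h : EvenForm A) (x : Fin 4 → ℤ) : 0 ≤ qZ A x := by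
  have h1 := QR_nonneg h.pos (zv x)
  rw [QR_zv h] at h1
  exact_mod_cast h1

theorem qZ_pos (h : EvenForm A) {x : Fin 4 → ℤ} (hx : x ≠ 0) : 0 < qZ A x := by
  have h1 := QR_pos h.pos hx
  rw [QR_zv h] at h1
  exact_mod_cast h1

/-- Finitely many vectors of bounded length. -/
theorem finite_qZ_le (h : EvenForm A) (n : ℤ) : {x : Fin 4 → ℤ | qZ A x ≤ n}.Finite := by
  obtain ⟨ε, hε, hl⟩ := exists_lower h.pos
  set K : ℤ := ⌈(n : ℝ) / ε⌉ with hK
  refine (Set.finite_Icc (fun _ : Fin 4 => -K) (fun _ => K)).subset fun x hx => ?_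
  have h1 := hl (zv x)
  rw [QR_zv h] at h1
  have hx' : ((qZ A x : ℤ) : ℝ) ≤ n := by exact_mod_cast hx
  have h2 : ∀ i, |x i| ≤ K := by
    intro i
    have h3 : ((x i : ℤ) : ℝ) ^ 2 ≤ ∑ i, (zv x i) ^ 2 :=
      Finset.single_le_sum (f := fun i => (zv x i) ^ 2) (fun j _ => sq_nonneg _)
        (Finset.mem_univ i)
    have h4 : ((x i : ℤ) : ℝ) ^ 2 ≤ (n : ℝ) / ε := by
      rw [le_div_iff₀ hε]
      nlinarith
    have h5 : ((x i : ℤ) : ℝ) ^ 2 ≤ (K : ℝ) := h4.trans (Int.le_ceil _)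
    have h6 : (x i) ^ 2 ≤ K := by exact_mod_cast h5
    have h7 : |x i| ≤ (x i) ^ 2 := by
      rcases eq_or_ne (x i) 0 with h0 | h0
      · simp [h0]
      · have := Int.one_le_abs h0
        nlinarith [sq_abs (x i)]
    omega
  rw [Set.mem_Icc]
  exact ⟨fun i => (abs_le.mp (h2 i)).1, fun i => (abs_le.mp (h2 i)).2⟩

/-- The representation numbers. -/
def rep (A : Matrix (Fin 4) (Fin 4) ℤ) (n : ℕ) : ℕ := Nat.card {x : Fin 4 → ℤ // qZ A x = n}

theorem finite_rep (h : EvenForm A) (n : ℕ) : Finite {x : Fin 4 → ℤ // qZ A x = n} := by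
  have h1 : {x : Fin 4 → ℤ | qZ A x = n} ⊆ {x : Fin 4 → ℤ | qZ A x ≤ n} :=
    fun x (hx : qZ A x = n) => le_of_eq hx
  exact ((finite_qZ_le h n).subset h1)

theorem rep_zero (h : EvenForm A) : rep A 0 = 1 := by
  rw [rep, Nat.card_eq_one_iff_unique]
  constructor
  · constructor
    rintro ⟨x, hx⟩ ⟨y, hy⟩
    have key : ∀ z : Fin 4 → ℤ, qZ A z = (0 : ℕ) → z = 0 := by
      intro z hz
      by_contra hne
      have := qZ_pos h hne
      rw [hz] at this
      simp at this
    exact Subtype.ext ((key x hx).trans (key y hy).symm)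
  · exact ⟨⟨0, by simp⟩⟩

theorem gauss_zv (h : EvenForm A) (τ : ℂ) (x : Fin 4 → ℤ) :
    gauss (toR A) τ (zv x) = cexp (2 * π * Complex.I * τ) ^ (qZ A x).toNat := by
  rw [gauss, QR_zv h, ← Complex.exp_nat_mul]
  congr 1
  have h1 : (((qZ A x).toNat : ℕ) : ℂ) = ((qZ A x : ℤ) : ℂ) := by
    have := Int.toNat_of_nonneg (qZ_nonneg h x)
    exact_mod_cast congrArg (fun n : ℤ => (n : ℂ)) this
  rw [h1]
  push_cast
  ring

/-- The `q`-expansion. -/
theorem hasSum_rep (h : EvenForm A) (τ : ℍ) :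
    HasSum (fun n : ℕ => (rep A n : ℂ) * cexp (2 * π * Complex.I * τ) ^ n) (theta A τ) := by
  have h1 := (hasSum_theta h τ).tsum_fiberwise (fun x => (qZ A x).toNat)
  have key : ∀ n : ℕ, (∑' b : (fun x => (qZ A x).toNat) ⁻¹' {n},
      gauss (toR A) τ (zv (b : Fin 4 → ℤ))) = (rep A n : ℂ) * cexp (2 * π * Complex.I * τ) ^ n := ?_
  · simp only [key] at h1
    exact h1
  intro n
  have h2 : ∀ b : (fun x => (qZ A x).toNat) ⁻¹' {n},
      gauss (toR A) τ (zv (b : Fin 4 → ℤ)) = cexp (2 * π * Complex.I * τ) ^ n := by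
    rintro ⟨x, hx⟩
    have hx' : (qZ A x).toNat = n := hx
    rw [gauss_zv h, hx']
  simp only [h2]
  rw [tsum_const, nsmul_eq_mul, rep]
  congr 2
  refine Nat.card_congr (Equiv.subtypeEquivRight fun x => ?_)
  have h3 := Int.toNat_of_nonneg (qZ_nonneg h x)
  change (qZ A x).toNat = n ↔ _
  omega

theorem theta_mdiff (h : EvenForm A) : MDiff (theta A) := by
  rw [UpperHalfPlane.mdifferentiable_iff]
  have key : ∀ z : ℂ, 0 < z.im → (theta A ∘ ofComplex) z =
      ∑' x : Fin 4 → ℤ, gauss (toR A) z (zv x) := by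
    intro z hz
    rw [Function.comp_apply, ofComplex_apply_of_im_pos hz, theta_eq h]
  intro z0 hz0
  have hz0' : 0 < z0.im := hz0
  set U : Set ℂ := {z | z0.im / 2 < z.im} with hU
  have hUo : IsOpen U := isOpen_lt continuous_const Complex.continuous_im
  have hzU : z0 ∈ U := by
    show z0.im / 2 < z0.im
    linarith
  have hw : 0 < (((z0.im / 2 : ℝ) : ℂ) * Complex.I).im := by
    simp
    linarith
  have h1 : DifferentiableOn ℂ (fun z => ∑' x : Fin 4 → ℤ, gauss (toR A) z (zv x)) U := by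
    refine differentiableOn_tsum_of_summable_norm (summable_norm_gauss h.pos hw)
      (fun x => ?_) hUo (fun x z hz => ?_)
    · unfold gauss
      fun_prop
    · rw [norm_gauss, norm_gauss, Real.exp_le_exp, neg_le_neg_iff]
      have h2 := QR_nonneg h.pos (zv x)
      have h3 : (((z0.im / 2 : ℝ) : ℂ) * Complex.I).im = z0.im / 2 := by simp
      rw [h3]
      have h4 : z0.im / 2 < z.im := hz
      have h5 : 2 * π * (z0.im / 2) ≤ 2 * π * z.im := by
        have := Real.pi_pos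
        nlinarith
      exact mul_le_mul_of_nonneg_right h5 h2
  have h2 : DifferentiableAt ℂ (theta A ∘ ofComplex) z0 := by
    refine (h1.differentiableAt (hUo.mem_nhds hzU)).congr_of_eventuallyEq ?_
    filter_upwards [hUo.mem_nhds hzU] with z hz
    refine key z ?_
    have h4 : z0.im / 2 < z.im := hz
    linarith
  exact h2.differentiableWithinAt

theorem isBounded_of_tendsto {f : ℍ → ℂ} {L : ℂ} (h : Tendsto f atImInfty (𝓝 L)) :
    IsBoundedAtImInfty f := by
  have := h.isBigO_one ℝ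
  exact this

theorem theta_bdd (h : EvenForm A) (γ : SL(2, ℤ)) :
    IsBoundedAtImInfty (theta A ∣[(2 : ℤ)] γ) := by
  have key : ∀ γ : SL(2, ℤ), 0 < γ 1 0 → IsBoundedAtImInfty (theta A ∣[(2 : ℤ)] γ) := by
    intro γ hpos
    obtain ⟨c, hc⟩ := Int.eq_ofNat_of_zero_le hpos.le
    have hc0 : c ≠ 0 := by rintro rfl; simp [hc] at hpos
    have : NeZero c := ⟨hc0⟩
    exact isBounded_of_tendsto (tendsto_theta_slash h γ hc)
  rcases lt_trichotomy (γ 1 0) 0 with h1 | h1 | h1
  · rw [← slash_neg]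
    exact key (-γ) (by simpa using h1)
  · rw [theta_slash_zero h h1]
    exact isBounded_of_tendsto (tendsto_theta h)
  · exact key γ h1

/-- **The theta series as a modular form.** -/
def thetaForm (h : EvenForm A) (hD : Dual A A' M) {s : ℕ} (hs : A.det = (s : ℤ) ^ 2) :
    ModularForm (Gamma0 M) 2 where
  toFun := theta A
  slash_action_eq' γ hγ := by
    obtain ⟨γ, hγ, rfl⟩ := hγ
    have h1 : (M : ℤ) ∣ γ 1 0 := by
      rw [← ZMod.intCast_zmod_eq_zero_iff_dvd]
      exact Gamma0_mem.mp hγ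
    exact theta_slash_Gamma0 h hD hs h1
  holo' := theta_mdiff h
  bdd_at_cusps' {c} hc := by
    have : NeZero M := ⟨hD.pos.ne'⟩
    rw [Subgroup.IsArithmetic.isCusp_iff_isCusp_SL2Z] at hc
    rw [OnePoint.isBoundedAt_iff_forall_SL2Z hc]
    exact fun γ _ => theta_bdd h γ

theorem coe_thetaForm (h : EvenForm A) (hD : Dual A A' M) {s : ℕ} (hs : A.det = (s : ℤ) ^ 2) :
    (⇑(thetaForm h hD hs) : ℍ → ℂ) = theta A := rfl

/-- The Fourier coefficients of the theta series. -/
theorem qCoeff_thetaForm (h : EvenForm A) (hD : Dual A A' M) {s : ℕ}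
    (hs : A.det = (s : ℤ) ^ 2) (n : ℕ) :
    ModularFormClass.qCoeff (thetaForm h hD hs) n = rep A n := by
  have h1 := ModularFormClass.qExpansion_coeff_unique (f := thetaForm h hD hs) (h := 1) one_pos
    (by simp) (c := fun n => (rep A n : ℂ)) (fun τ => by
      have h2 := hasSum_rep h τ
      have h3 : Function.Periodic.qParam 1 (τ : ℂ) = cexp (2 * π * Complex.I * τ) := by
        rw [Function.Periodic.qParam]
        simp
      rw [h3]
      exact h2) n
  rw [ModularFormClass.qCoeff, h1]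

end Fermat.Agent.P2.Theta
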