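import Mathlib

/-!
# Integral quaternary quadratic forms and their theta series: definitions
-/

set_option autoImplicit false

open Matrix UpperHalfPlane
open scoped Real

noncomputable section

namespace Fermat.Agent.P2.Theta

/-- An even integral positive definite Gram matrix. -/
structure EvenForm (A : Matrix (Fin 4) (Fin 4) ℤ) : Prop where
  symm : A.IsSymm
  even : ∀ i, Even (A i i)
  pos : (A.map (Int.cast : ℤ → ℝ)).PosDef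

/-- `½ xᵀ A x` -/
def qZ (A : Matrix (Fin 4) (Fin 4) ℤ) (x : Fin 4 → ℤ) : ℤ := (x ⬝ᵥ A *ᵥ x) / 2

/-- The theta series. -/
def theta (A : Matrix (Fin 4) (Fin 4) ℤ) (τ : ℍ) : ℂ :=
  ∑' x : Fin 4 → ℤ, Complex.exp (2 * π * Complex.I * (qZ A x : ℂ) * τ)

variable {A : Matrix (Fin 4) (Fin 4) ℤ}

theorem two_mul_qZ (hs : A.IsSymm) (he : ∀ i, Even (A i i)) (x : Fin 4 → ℤ) :
    2 * qZ A x = x ⬝ᵥ A *ᵥ x := by
  rw [qZ]
  refine Int.mul_ediv_cancel' ?_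
  obtain ⟨d0, h0⟩ := he 0
  obtain ⟨d1, h1⟩ := he 1
  obtain ⟨d2, h2⟩ := he 2
  obtain ⟨d3, h3⟩ := he 3
  have e10 : A 1 0 = A 0 1 := hs.apply 0 1
  have e20 : A 2 0 = A 0 2 := hs.apply 0 2
  have e30 : A 3 0 = A 0 3 := hs.apply 0 3
  have e21 : A 2 1 = A 1 2 := hs.apply 1 2
  have e31 : A 3 1 = A 1 3 := hs.apply 1 3
  have e32 : A 3 2 = A 2 3 := hs.apply 2 3
  refine ⟨d0 * x 0 ^ 2 + d1 * x 1 ^ 2 + d2 * x 2 ^ 2 + d3 * x 3 ^ 2 + A 0 1 * x 0 * x 1 +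
    A 0 2 * x 0 * x 2 + A 0 3 * x 0 * x 3 + A 1 2 * x 1 * x 2 + A 1 3 * x 1 * x 3 +
    A 2 3 * x 2 * x 3, ?_⟩
  simp only [dotProduct, mulVec, Fin.sum_univ_four]
  rw [e10, e20, e30, e21, e31, e32, h0, h1, h2, h3]
  ring

theorem EvenForm.two_mul_qZ (h : EvenForm A) (x : Fin 4 → ℤ) : 2 * qZ A x = x ⬝ᵥ A *ᵥ x :=
  Fermat.Agent.P2.Theta.two_mul_qZ h.symm h.even x

theorem dot_symm (hs : A.IsSymm) (x y : Fin 4 → ℤ) : x ⬝ᵥ A *ᵥ y = y ⬝ᵥ A *ᵥ x := by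
  rw [dotProduct_mulVec, ← mulVec_transpose, hs.eq, dotProduct_comm]

theorem qZ_add (hs : A.IsSymm) (he : ∀ i, Even (A i i)) (x y : Fin 4 → ℤ) :
    qZ A (x + y) = qZ A x + qZ A y + x ⬝ᵥ A *ᵥ y := by
  have h1 := two_mul_qZ hs he (x + y)
  have h2 := two_mul_qZ hs he x
  have h3 := two_mul_qZ hs he y
  have h4 := dot_symm hs x y
  rw [mulVec_add, dotProduct_add, add_dotProduct, add_dotProduct] at h1
  omega

theorem qZ_smul (hs : A.IsSymm) (he : ∀ i, Even (A i i)) (c : ℤ) (x : Fin 4 → ℤ) :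
    qZ A (c • x) = c ^ 2 * qZ A x := by
  have h1 := two_mul_qZ hs he (c • x)
  have h2 := two_mul_qZ hs he x
  rw [mulVec_smul, dotProduct_smul, smul_dotProduct, ← h2] at h1
  simp only [smul_eq_mul] at h1
  nlinarith

@[simp] theorem qZ_zero : qZ A 0 = 0 := by simp [qZ]

theorem EvenForm.qZ_add (h : EvenForm A) (x y : Fin 4 → ℤ) :
    qZ A (x + y) = qZ A x + qZ A y + x ⬝ᵥ A *ᵥ y :=
  Fermat.Agent.P2.Theta.qZ_add h.symm h.even x y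

theorem EvenForm.qZ_smul (h : EvenForm A) (c : ℤ) (x : Fin 4 → ℤ) :
    qZ A (c • x) = c ^ 2 * qZ A x :=
  Fermat.Agent.P2.Theta.qZ_smul h.symm h.even c x

/-- The form modulo `c` -/
def qc (A : Matrix (Fin 4) (Fin 4) ℤ) (c : ℕ) (r : Fin 4 → ZMod c) : ZMod c :=
  ((qZ A fun i => (r i).val : ℤ) : ZMod c)

theorem qZ_add_smul_mod (hs : A.IsSymm) (he : ∀ i, Even (A i i)) (c : ℕ) (x y : Fin 4 → ℤ) :
    ((qZ A (x + (c : ℤ) • y) : ℤ) : ZMod c) = ((qZ A x : ℤ) : ZMod c) := by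
  rw [qZ_add hs he, qZ_smul hs he, mulVec_smul, dotProduct_smul]
  simp

theorem qc_intCast (hs : A.IsSymm) (he : ∀ i, Even (A i i)) (c : ℕ) [NeZero c]
    (x : Fin 4 → ℤ) :
    qc A c (fun i => (x i : ZMod c)) = ((qZ A x : ℤ) : ZMod c) := by
  rw [qc]
  have h1 : ∀ i, ((x i : ZMod c).val : ℤ) = x i + (c : ℤ) * (-(x i / c)) := by
    intro i
    rw [ZMod.val_intCast]
    have := Int.emod_add_mul_ediv (x i) c
    linarith
  have h2 : (fun i => ((x i : ZMod c).val : ℤ)) = x + (c : ℤ) • (fun i => -(x i / c)) := by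
    funext i
    rw [Pi.add_apply, Pi.smul_apply, smul_eq_mul]
    exact h1 i
  rw [h2]
  exact qZ_add_smul_mod hs he c _ _

/-- The Gauss sum `∑_r e((a Q(r) + m·r)/c)` -/
def GSm (A : Matrix (Fin 4) (Fin 4) ℤ) (a : ℤ) (c : ℕ) [NeZero c] (m : Fin 4 → ℤ) : ℂ :=
  ∑ r : Fin 4 → ZMod c, ZMod.stdAddChar ((a : ZMod c) * qc A c r + ∑ i, (m i : ZMod c) * r i)

/-- The Gauss sum `∑_r e(a Q(r)/c)` -/
def GS (A : Matrix (Fin 4) (Fin 4) ℤ) (a : ℤ) (c : ℕ) [NeZero c] : ℂ :=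
  ∑ r : Fin 4 → ZMod c, ZMod.stdAddChar ((a : ZMod c) * qc A c r)

theorem GSm_zero (a : ℤ) (c : ℕ) [NeZero c] : GSm A a c 0 = GS A a c := by
  simp [GSm, GS]

/-- The real Gram matrix. -/
abbrev toR (A : Matrix (Fin 4) (Fin 4) ℤ) : Matrix (Fin 4) (Fin 4) ℝ :=
  A.map (Int.cast : ℤ → ℝ)

end Fermat.Agent.P2.Theta
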