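import Mathlib
import Fermat.Prelude.Def_ModularForm_HeckeOperatorForms

/-!
# `T_ℓ - (ℓ + 1)` kills the Eisenstein part

For squarefree `M`, a prime `ℓ ∤ M` and `f ∈ M₂(Γ₀(M))`, the form `T_ℓ f - (ℓ + 1) f` is a cusp form.
-/

set_option autoImplicit false
set_option linter.unusedSimpArgs false
set_option linter.unusedVariables false

open UpperHalfPlane MatrixGroups CongruenceSubgroup ModularGroup Filter Topology
  Matrix.SpecialLinearGroup

open scoped ModularForm Manifold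

noncomputable section

namespace Fermat.Agent.P2.Theta

/-! ### entries in `SL₂(ℤ)` -/

theorem sl_mul (X Y : SL(2, ℤ)) (i j : Fin 2) :
    (X * Y) i j = X i 0 * Y 0 j + X i 1 * Y 1 j := by
  rw [Matrix.SpecialLinearGroup.coe_mul, Matrix.mul_apply, Fin.sum_univ_two]

theorem sl_inv00 (X : SL(2, ℤ)) : X⁻¹ 0 0 = X 1 1 := by
  rw [Matrix.SpecialLinearGroup.coe_inv, Matrix.adjugate_fin_two]; rfl
theorem sl_inv01 (X : SL(2, ℤ)) : X⁻¹ 0 1 = -X 0 1 := by
  rw [Matrix.SpecialLinearGroup.coe_inv, Matrix.adjugate_fin_two]; rfl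
theorem sl_inv10 (X : SL(2, ℤ)) : X⁻¹ 1 0 = -X 1 0 := by
  rw [Matrix.SpecialLinearGroup.coe_inv, Matrix.adjugate_fin_two]; rfl
theorem sl_inv11 (X : SL(2, ℤ)) : X⁻¹ 1 1 = X 0 0 := by
  rw [Matrix.SpecialLinearGroup.coe_inv, Matrix.adjugate_fin_two]; rfl

theorem sl_T00 (j : ℤ) : (T ^ j : SL(2, ℤ)) 0 0 = 1 := by simp [coe_T_zpow]
theorem sl_T01 (j : ℤ) : (T ^ j : SL(2, ℤ)) 0 1 = j := by simp [coe_T_zpow]
theorem sl_T10 (j : ℤ) : (T ^ j : SL(2, ℤ)) 1 0 = 0 := by simp [coe_T_zpow]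
theorem sl_T11 (j : ℤ) : (T ^ j : SL(2, ℤ)) 1 1 = 1 := by simp [coe_T_zpow]

theorem sl_det (γ : SL(2, ℤ)) : γ 0 0 * γ 1 1 - γ 0 1 * γ 1 0 = 1 := by
  have h := γ.det_coe
  rw [Matrix.det_fin_two] at h
  exact h

variable {M : ℕ}

/-! ### values at the cusps -/

theorem slash_mem (f : ModularForm (Gamma0 M) 2) {γ : SL(2, ℤ)} (hγ : γ ∈ Gamma0 M) :
    (⇑f : ℍ → ℂ) ∣[(2 : ℤ)] γ = f := by
  rw [ModularForm.SL_slash]
  exact SlashInvariantFormClass.slash_action_eq f _ ⟨γ, hγ, rfl⟩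

theorem slash_T_zpow_apply (k : ℤ) (f : ℍ → ℂ) (j : ℤ) (τ : ℍ) :
    (f ∣[k] (T ^ j : SL(2, ℤ))) τ = f ((T ^ j : SL(2, ℤ)) • τ) := by
  rw [ModularForm.SL_slash_apply]
  have : denom ((T ^ j : SL(2, ℤ)) : GL (Fin 2) ℝ) τ = 1 := by
    rw [ModularGroup.denom_apply, sl_T10, sl_T11]
    simp
  rw [this]
  simp

theorem im_T_zpow_smul (j : ℤ) (τ : ℍ) : ((T ^ j : SL(2, ℤ)) • τ).im = τ.im := by
  rw [UpperHalfPlane.modular_T_zpow_smul]
  exact UpperHalfPlane.vadd_im _ _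

theorem tendsto_T_zpow_smul (j : ℤ) :
    Tendsto (fun τ : ℍ => (T ^ j : SL(2, ℤ)) • τ) atImInfty atImInfty := by
  rw [atImInfty, tendsto_comap_iff]
  have : (UpperHalfPlane.im ∘ fun τ : ℍ => (T ^ j : SL(2, ℤ)) • τ) = UpperHalfPlane.im := by
    funext τ
    exact im_T_zpow_smul j τ
  rw [this]
  exact tendsto_comap

theorem mul_T_mul_inv_mem (γ : SL(2, ℤ)) : γ * T ^ (M : ℤ) * γ⁻¹ ∈ Gamma0 M := by
  rw [Gamma0_mem]
  have e : ((γ * T ^ (M : ℤ) * γ⁻¹ : SL(2, ℤ)) 1 0 : ℤ) = -(M : ℤ) * (γ 1 0) ^ 2 := by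
    simp only [sl_mul, sl_inv00, sl_inv01, sl_inv10, sl_inv11, sl_T00, sl_T01, sl_T10, sl_T11]
    ring
  rw [e]
  push_cast
  simp

theorem periodic_slash (f : ModularForm (Gamma0 M) 2) (γ : SL(2, ℤ)) :
    Function.Periodic (((⇑f : ℍ → ℂ) ∣[(2 : ℤ)] γ) ∘ ofComplex) (M : ℝ) := by
  have h1 : ((⇑f : ℍ → ℂ) ∣[(2 : ℤ)] γ) ∣[(2 : ℤ)] (T ^ (M : ℤ) : SL(2, ℤ)) =
      ((⇑f : ℍ → ℂ) ∣[(2 : ℤ)] γ) := by
    rw [← SlashAction.slash_mul]
    have : γ * T ^ (M : ℤ) = (γ * T ^ (M : ℤ) * γ⁻¹) * γ := by group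
    rw [this, SlashAction.slash_mul, slash_mem f (mul_T_mul_inv_mem γ)]
  have h2 : ∀ τ : ℍ, ((⇑f : ℍ → ℂ) ∣[(2 : ℤ)] γ) (((M : ℝ)) +ᵥ τ) =
      ((⇑f : ℍ → ℂ) ∣[(2 : ℤ)] γ) τ := by
    intro τ
    have := congrFun h1 τ
    rw [slash_T_zpow_apply, UpperHalfPlane.modular_T_zpow_smul] at this
    simpa using this
  intro w
  by_cases hw : 0 < w.im
  · have hw' : 0 < (w + ((M : ℝ) : ℂ)).im := by simpa using hw
    simp only [Function.comp_apply, ofComplex_apply_of_im_pos hw', ofComplex_apply_of_im_pos hw]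
    rw [← h2 ⟨w, hw⟩]
    have : (⟨w + ((M : ℝ) : ℂ), hw'⟩ : ℍ) = (M : ℝ) +ᵥ (⟨w, hw⟩ : ℍ) := by
      apply UpperHalfPlane.ext
      rw [UpperHalfPlane.coe_vadd]
      simp [add_comm]
    rw [this]
  · have hw' : (w + ((M : ℝ) : ℂ)).im ≤ 0 := by simpa using hw
    simp only [Function.comp_apply]
    rw [ofComplex_apply_of_im_nonpos hw', ofComplex_apply_of_im_nonpos (not_lt.mp hw)]

theorem mdiff_slash_SL {k : ℤ} {f : ℍ → ℂ} (hf : MDiff f) (γ : SL(2, ℤ)) :
    MDiff (f ∣[k] γ) := by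
  rw [ModularForm.SL_slash]
  exact hf.slash k _

/-- the value of `f | γ` at `i∞`. -/
def cuspVal (f : ModularForm (Gamma0 M) 2) (γ : SL(2, ℤ)) : ℂ :=
  valueAtInfty ((⇑f : ℍ → ℂ) ∣[(2 : ℤ)] γ)

theorem tendsto_cuspVal [NeZero M] (f : ModularForm (Gamma0 M) 2) (γ : SL(2, ℤ)) :
    Tendsto ((⇑f : ℍ → ℂ) ∣[(2 : ℤ)] γ) atImInfty (𝓝 (cuspVal f γ)) := by
  have hM : (0 : ℝ) < M := by exact_mod_cast Nat.pos_of_ne_zero (NeZero.ne M)
  have hper := periodic_slash f γ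
  have hhol : MDiff ((⇑f : ℍ → ℂ) ∣[(2 : ℤ)] γ) := mdiff_slash_SL f.holo' γ
  have hbdd : IsBoundedAtImInfty ((⇑f : ℍ → ℂ) ∣[(2 : ℤ)] γ) :=
    ModularFormClass.bdd_at_infty_slash f γ
  have hanal := analyticAt_cuspFunction_zero hM hper hhol hbdd
  rw [cuspVal, ← cuspFunction_apply_zero hM hanal hper]
  refine (hanal.continuousAt.tendsto.comp (qParam_tendsto_atImInfty hM)).congr fun τ => ?_
  exact eq_cuspFunction τ hM.ne' hper

theorem cuspVal_eq_of_tendsto [NeZero M] (f : ModularForm (Gamma0 M) 2) (γ : SL(2, ℤ)) {L : ℂ}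
    (h : Tendsto ((⇑f : ℍ → ℂ) ∣[(2 : ℤ)] γ) atImInfty (𝓝 L)) : cuspVal f γ = L :=
  tendsto_nhds_unique (tendsto_cuspVal f γ) h

theorem cuspVal_mul_T [NeZero M] (f : ModularForm (Gamma0 M) 2) (γ : SL(2, ℤ)) (j : ℤ) :
    cuspVal f (γ * T ^ j) = cuspVal f γ := by
  apply cuspVal_eq_of_tendsto
  rw [SlashAction.slash_mul]
  refine ((tendsto_cuspVal f γ).comp (tendsto_T_zpow_smul j)).congr fun τ => ?_
  rw [slash_T_zpow_apply]
  rfl

theorem cuspVal_mem_mul (f : ModularForm (Gamma0 M) 2) {γ' : SL(2, ℤ)} (h : γ' ∈ Gamma0 M)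
    (γ : SL(2, ℤ)) : cuspVal f (γ' * γ) = cuspVal f γ := by
  rw [cuspVal, SlashAction.slash_mul, slash_mem f h]
  rfl

/-- for squarefree `M` the cusp value only depends on `gcd(c, M)`. -/
theorem cuspVal_eq_of_gcd [NeZero M] (hM : Squarefree M) (f : ModularForm (Gamma0 M) 2)
    (γ γ' : SL(2, ℤ)) (h : Int.gcd (γ 1 0) M = Int.gcd (γ' 1 0) M) :
    cuspVal f γ = cuspVal f γ' := by
  set g : ℕ := Int.gcd (γ 1 0) M with hg
  have hgM : g ∣ M := by
    have := Int.gcd_dvd_right (γ 1 0) (M : ℤ)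
    exact_mod_cast this
  obtain ⟨m, hm⟩ := hgM
  have hgm : Nat.Coprime g m := by
    rw [hm] at hM
    exact Nat.coprime_of_squarefree_mul hM
  have hm0 : m ≠ 0 := by
    rintro rfl
    exact NeZero.ne M (by rw [hm, mul_zero])
  have cop : ∀ c : ℤ, Int.gcd c M = g → IsCoprime c (m : ℤ) := by
    intro c hc
    rw [Int.isCoprime_iff_gcd_eq_one]
    have h1 : Int.gcd c m ∣ g := by
      rw [← hc]
      exact Int.gcd_dvd_gcd_of_dvd_right _ ⟨(g : ℤ), by rw [hm]; push_cast; ring⟩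
    have h2 : Int.gcd c m ∣ m := by
      have := Int.gcd_dvd_right c (m : ℤ)
      exact_mod_cast this
    exact Nat.eq_one_of_dvd_coprimes hgm h1 h2
  have hc := cop _ hg.symm
  have hc' := cop _ h.symm
  obtain ⟨u, v, huv⟩ := hc.mul_left hc'
  -- `u * (c c') ≡ 1 mod m`
  set c := γ 1 0 with hcdef
  set d := γ 1 1
  set c' := γ' 1 0 with hcdef'
  set d' := γ' 1 1
  set j : ℤ := u * (c * d' - d * c') with hj
  have hmem : γ * T ^ j * γ'⁻¹ ∈ Gamma0 M := by
    rw [Gamma0_mem]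
    have e : ((γ * T ^ j * γ'⁻¹ : SL(2, ℤ)) 1 0 : ℤ) = c * d' - d * c' - j * (c * c') := by
      simp only [sl_mul, sl_inv00, sl_inv01, sl_inv10, sl_inv11, sl_T00, sl_T01, sl_T10, sl_T11]
      ring
    rw [e, ZMod.intCast_zmod_eq_zero_iff_dvd]
    have h1 : (g : ℤ) ∣ c * d' - d * c' - j * (c * c') := by
      have a1 : (g : ℤ) ∣ c := Int.gcd_dvd_left _ _
      have a2 : (g : ℤ) ∣ c' := by rw [h]; exact Int.gcd_dvd_left _ _
      exact ((a1.mul_right _).sub (a2.mul_left _)).sub ((a1.mul_right _).mul_left _)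
    have h2 : (m : ℤ) ∣ c * d' - d * c' - j * (c * c') := by
      refine ⟨v * (c * d' - d * c'), ?_⟩
      have : u * (c * c') = 1 - v * m := by linarith [huv]
      rw [hj]
      calc c * d' - d * c' - u * (c * d' - d * c') * (c * c')
          = (c * d' - d * c') * (1 - u * (c * c')) := by ring
        _ = (c * d' - d * c') * (v * m) := by rw [this]; ring
        _ = _ := by ring
    rw [hm]
    push_cast
    exact IsCoprime.mul_dvd (Nat.isCoprime_iff_coprime.mpr hgm) h1 h2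
  calc cuspVal f γ = cuspVal f (γ * T ^ j) := (cuspVal_mul_T f γ j).symm
    _ = cuspVal f ((γ * T ^ j * γ'⁻¹) * γ') := by congr 1; group
    _ = cuspVal f γ' := cuspVal_mem_mul f hmem γ'

/-! ### slashing by Hecke matrices -/

theorem tendsto_atImInfty_iff {X : ℍ → ℍ} {c : ℝ} (hc : 0 < c)
    (h : ∀ τ, (X τ).im = c * τ.im) : Tendsto X atImInfty atImInfty := by
  rw [atImInfty, tendsto_comap_iff]
  have : (UpperHalfPlane.im ∘ X) = fun τ => c * τ.im := funext h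
  rw [this]
  exact Tendsto.const_mul_atTop hc tendsto_comap

theorem tendsto_slash_heckeMatrix {l : ℕ} (hl : l ≠ 0) (j : ℕ) {g : ℍ → ℂ} {L : ℂ}
    (hg : Tendsto g atImInfty (𝓝 L)) :
    Tendsto (g ∣[(2 : ℤ)] ModularForm.heckeMatrix l j) atImInfty (𝓝 ((l : ℂ)⁻¹ * L)) := by
  have hl0 : (0 : ℝ) < l := by exact_mod_cast Nat.pos_of_ne_zero hl
  have h1 : Tendsto (fun τ : ℍ => ModularForm.heckeMatrix l j • τ) atImInfty atImInfty := by
    refine tendsto_atImInfty_iff (c := (l : ℝ)⁻¹) (by positivity) fun τ => ?_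
    rw [← UpperHalfPlane.coe_im, ModularForm.coe_heckeMatrix_smul hl]
    rw [← Complex.ofReal_natCast l, Complex.div_ofReal_im]
    simp [div_eq_inv_mul]
  refine ((hg.comp h1).const_mul ((l : ℂ)⁻¹)).congr fun τ => ?_
  rw [ModularForm.slash_heckeMatrix_apply 2 hl]
  rfl

theorem tendsto_slash_heckeDiagMatrix {l : ℕ} (hl : l ≠ 0) {g : ℍ → ℂ} {L : ℂ}
    (hg : Tendsto g atImInfty (𝓝 L)) :
    Tendsto (g ∣[(2 : ℤ)] ModularForm.heckeDiagMatrix l) atImInfty (𝓝 ((l : ℂ) * L)) := by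
  have hl0 : (0 : ℝ) < l := by exact_mod_cast Nat.pos_of_ne_zero hl
  have h1 : Tendsto (fun τ : ℍ => ModularForm.heckeDiagMatrix l • τ) atImInfty atImInfty := by
    refine tendsto_atImInfty_iff (c := (l : ℝ)) hl0 fun τ => ?_
    rw [← UpperHalfPlane.coe_im, ModularForm.coe_heckeDiagMatrix_smul hl]
    rw [← Complex.ofReal_natCast l, Complex.im_ofReal_mul, UpperHalfPlane.coe_im]
  refine ((hg.comp h1).const_mul ((l : ℂ))).congr fun τ => ?_
  rw [ModularForm.slash_heckeDiagMatrix_apply 2 hl]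
  simp

/-- an integral matrix of determinant `l` (prime) is `γ' * diag(l,1)` or `γ' * (1 j; 0 l)`. -/
theorem exists_decomp {l : ℕ} (hl : l.Prime) (A B C D : ℤ) (hdet : A * D - B * C = l) :
    ((l : ℤ) ∣ A ∧ (l : ℤ) ∣ C → ∃ γ' : SL(2, ℤ), γ' 0 0 * l = A ∧ γ' 1 0 * l = C ∧ γ' 0 1 = B ∧
      γ' 1 1 = D) ∧
    (¬ ((l : ℤ) ∣ A ∧ (l : ℤ) ∣ C) → ∃ j : ℕ, ∃ γ' : SL(2, ℤ), γ' 0 0 = A ∧ γ' 1 0 = C ∧
      γ' 0 0 * j + γ' 0 1 * l = B ∧ γ' 1 0 * j + γ' 1 1 * l = D) := by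
  have hl0 : (l : ℤ) ≠ 0 := by exact_mod_cast hl.ne_zero
  have hlp : Prime (l : ℤ) := Nat.prime_iff_prime_int.mp hl
  constructor
  · rintro ⟨⟨a, rfl⟩, ⟨c, rfl⟩⟩
    refine ⟨⟨!![a, B; c, D], ?_⟩, ?_, ?_, rfl, rfl⟩
    · rw [Matrix.det_fin_two_of]
      apply mul_left_cancel₀ hl0
      linarith
    · change a * l = _
      ring
    · change c * l = _
      ring
  · intro h
    -- find `j` with `l ∣ B - j A` and `l ∣ D - j C`
    obtain ⟨j, hjB, hjD⟩ : ∃ j : ℤ, (l : ℤ) ∣ B - j * A ∧ (l : ℤ) ∣ D - j * C := by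
      by_cases hA : (l : ℤ) ∣ A
      · have hC : ¬ (l : ℤ) ∣ C := fun hC => h ⟨hA, hC⟩
        have hcop : IsCoprime C (l : ℤ) := ((Prime.coprime_iff_not_dvd hlp).mpr hC).symm
        obtain ⟨u, v, huv⟩ := hcop
        have h2 : (l : ℤ) ∣ D - (u * D) * C := ⟨v * D, by linear_combination (-D) * huv⟩
        refine ⟨u * D, ?_, h2⟩
        -- `C * (B - jA) = AD - l - jAC = A (D - jC) - l`
        have h3 : (l : ℤ) ∣ C * (B - (u * D) * A) := by
          have e : C * (B - (u * D) * A) = A * (D - (u * D) * C) - l := by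
            linear_combination -hdet
          rw [e]
          exact (h2.mul_left _).sub dvd_rfl
        exact (hlp.dvd_or_dvd h3).resolve_left hC
      · have hcop : IsCoprime A (l : ℤ) := ((Prime.coprime_iff_not_dvd hlp).mpr hA).symm
        obtain ⟨u, v, huv⟩ := hcop
        have h2 : (l : ℤ) ∣ B - (u * B) * A := ⟨v * B, by linear_combination (-B) * huv⟩
        refine ⟨u * B, h2, ?_⟩
        have h3 : (l : ℤ) ∣ A * (D - (u * B) * C) := by
          have e : A * (D - (u * B) * C) = C * (B - (u * B) * A) + l := by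
            linear_combination hdet
          rw [e]
          exact (h2.mul_left _).add dvd_rfl
        exact (hlp.dvd_or_dvd h3).resolve_left hA
    -- make `j` natural
    set i : ℕ := (j % l).toNat with hi
    have hi' : (i : ℤ) = j % l := Int.toNat_of_nonneg (Int.emod_nonneg _ hl0)
    have hij : (l : ℤ) ∣ j - i := by
      rw [hi']
      exact Int.dvd_self_sub_emod
    obtain ⟨b, hb⟩ : (l : ℤ) ∣ B - i * A := by
      have : B - i * A = (B - j * A) + (j - i) * A := by ring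
      rw [this]
      exact hjB.add (hij.mul_right _)
    obtain ⟨d, hd⟩ : (l : ℤ) ∣ D - i * C := by
      have : D - i * C = (D - j * C) + (j - i) * C := by ring
      rw [this]
      exact hjD.add (hij.mul_right _)
    refine ⟨i, ⟨!![A, b; C, d], ?_⟩, rfl, rfl, ?_, ?_⟩
    · rw [Matrix.det_fin_two_of]
      apply mul_left_cancel₀ hl0
      linear_combination hdet - A * hd + C * hb
    · change A * i + b * l = B
      linear_combination -hb
    · change C * i + d * l = D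
      linear_combination -hd

theorem slash_slash_eq {k : ℤ} (f : ℍ → ℂ) (β β' : GL (Fin 2) ℝ) (γ γ' : SL(2, ℤ))
    (h : β * (γ : GL (Fin 2) ℝ) = (γ' : GL (Fin 2) ℝ) * β') :
    (f ∣[k] β) ∣[k] γ = (f ∣[k] γ') ∣[k] β' := by
  rw [ModularForm.SL_slash, ModularForm.SL_slash, ← SlashAction.slash_mul, ← SlashAction.slash_mul,
    h]

/-- the combined statement: for an integral matrix `m = β γ` of determinant `l`, the limit of
`f | m`. -/
theorem tendsto_slash_det [NeZero M] (hM : Squarefree M) {l : ℕ} (hl : l.Prime)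
    (f : ModularForm (Gamma0 M) 2) (β : GL (Fin 2) ℝ) (γ : SL(2, ℤ)) (A B C D : ℤ)
    (hdet : A * D - B * C = l)
    (hm : ((β * (γ : GL (Fin 2) ℝ) : GL (Fin 2) ℝ) : Matrix (Fin 2) (Fin 2) ℝ) =
      !![(A : ℝ), (B : ℝ); (C : ℝ), (D : ℝ)])
    (hgcd : Int.gcd C M = Int.gcd (γ 1 0) M) (hlM : ¬ l ∣ M) :
    Tendsto (((⇑f : ℍ → ℂ) ∣[(2 : ℤ)] β) ∣[(2 : ℤ)] γ) atImInfty
      (𝓝 ((if (l : ℤ) ∣ A ∧ (l : ℤ) ∣ C then (l : ℂ) else (l : ℂ)⁻¹) * cuspVal f γ)) := by
  obtain ⟨h1, h2⟩ := exists_decomp hl A B C D hdet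
  split_ifs with h
  · obtain ⟨γ', e1, e2, e3, e4⟩ := h1 h
    have hval : cuspVal f γ' = cuspVal f γ := by
      apply cuspVal_eq_of_gcd hM
      rw [← hgcd, ← e2]
      have hcop : Nat.Coprime l M := (Nat.Prime.coprime_iff_not_dvd hl).mpr hlM
      rw [Int.gcd_eq_natAbs_gcd_natAbs, Int.gcd_eq_natAbs_gcd_natAbs, Int.natAbs_mul]
      exact (Nat.Coprime.gcd_mul_right_cancel _ hcop).symm
    rw [slash_slash_eq (f : ℍ → ℂ) β (ModularForm.heckeDiagMatrix l) γ γ', ← hval]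
    · exact tendsto_slash_heckeDiagMatrix hl.ne_zero (tendsto_cuspVal f γ')
    · apply Matrix.GeneralLinearGroup.ext
      intro i j
      rw [hm, Matrix.GeneralLinearGroup.coe_mul, ModularForm.val_heckeDiagMatrix hl.ne_zero]
      have e1' : ((γ' 0 0 : ℤ) : ℝ) * l = A := by exact_mod_cast e1
      have e2' : ((γ' 1 0 : ℤ) : ℝ) * l = C := by exact_mod_cast e2
      have e3' : ((γ' 0 1 : ℤ) : ℝ) = B := by exact_mod_cast e3
      have e4' : ((γ' 1 1 : ℤ) : ℝ) = D := by exact_mod_cast e4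
      fin_cases i <;> fin_cases j <;> simp [Matrix.mul_apply, Fin.sum_univ_two, e1', e2', e3', e4']
  · obtain ⟨j, γ', e1, e2, e3, e4⟩ := h2 h
    have hval : cuspVal f γ' = cuspVal f γ := by
      apply cuspVal_eq_of_gcd hM
      rw [← hgcd, ← e2]
    rw [slash_slash_eq (f : ℍ → ℂ) β (ModularForm.heckeMatrix l j) γ γ', ← hval]
    · exact tendsto_slash_heckeMatrix hl.ne_zero j (tendsto_cuspVal f γ')
    · apply Matrix.GeneralLinearGroup.ext
      intro i j'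
      rw [hm, Matrix.GeneralLinearGroup.coe_mul, ModularForm.val_heckeMatrix hl.ne_zero]
      have e1' : ((γ' 0 0 : ℤ) : ℝ) = A := by exact_mod_cast e1
      have e2' : ((γ' 1 0 : ℤ) : ℝ) = C := by exact_mod_cast e2
      have e3' : ((γ' 0 0 : ℤ) : ℝ) * j + ((γ' 0 1 : ℤ) : ℝ) * l = B := by exact_mod_cast e3
      have e4' : ((γ' 1 0 : ℤ) : ℝ) * j + ((γ' 1 1 : ℤ) : ℝ) * l = D := by exact_mod_cast e4
      fin_cases i <;> fin_cases j' <;>
        simp [Matrix.mul_apply, Fin.sum_univ_two, ← e1', ← e2', ← e3', ← e4']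

/-- The value of `T_l f` at every cusp is `(l+1)` times the value of `f`. -/
theorem tendsto_heckeT_slash [NeZero M] (hM : Squarefree M) {l : ℕ} (hl : l.Prime)
    (hlM : ¬ l ∣ M) (f : ModularForm (Gamma0 M) 2) (γ : SL(2, ℤ)) :
    Tendsto ((ModularForm.heckeT 2 l (⇑f : ℍ → ℂ)) ∣[(2 : ℤ)] γ) atImInfty
      (𝓝 (((l : ℂ) + 1) * cuspVal f γ)) := by
  have hl0 : (l : ℂ) ≠ 0 := by exact_mod_cast hl.ne_zero
  have hlp : Prime (l : ℤ) := Nat.prime_iff_prime_int.mp hl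
  have hcopM : Nat.Coprime l M := (Nat.Prime.coprime_iff_not_dvd hl).mpr hlM
  have hdetγ := sl_det γ
  set a := γ 0 0
  set b := γ 0 1
  set c := γ 1 0 with hc
  set d := γ 1 1
  -- the upper triangular part
  have hU : ∀ j : ℕ, Tendsto (((⇑f : ℍ → ℂ) ∣[(2 : ℤ)] ModularForm.heckeMatrix l j) ∣[(2 : ℤ)] γ)
      atImInfty (𝓝 ((if (l : ℤ) ∣ a + j * c then (l : ℂ) else (l : ℂ)⁻¹) * cuspVal f γ)) := by
    intro j
    have := tendsto_slash_det hM hl f (ModularForm.heckeMatrix l j) γ (a + j * c) (b + j * d)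
      (l * c) (l * d) (by linear_combination (l : ℤ) * hdetγ) (by
        rw [Matrix.GeneralLinearGroup.coe_mul, ModularForm.val_heckeMatrix hl.ne_zero]
        ext i k
        fin_cases i <;> fin_cases k <;>
          simp [Matrix.mul_apply, Fin.sum_univ_two, a, b, c, d]) (by
        rw [← hc, Int.gcd_eq_natAbs_gcd_natAbs, Int.gcd_eq_natAbs_gcd_natAbs, Int.natAbs_mul]
        exact Nat.Coprime.gcd_mul_left_cancel _ hcopM) hlM
    simpa using this
  have hD : Tendsto (((⇑f : ℍ → ℂ) ∣[(2 : ℤ)] ModularForm.heckeDiagMatrix l) ∣[(2 : ℤ)] γ)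
      atImInfty (𝓝 ((if (l : ℤ) ∣ c then (l : ℂ) else (l : ℂ)⁻¹) * cuspVal f γ)) := by
    have := tendsto_slash_det hM hl f (ModularForm.heckeDiagMatrix l) γ (l * a) (l * b)
      c d (by linear_combination (l : ℤ) * hdetγ) (by
        rw [Matrix.GeneralLinearGroup.coe_mul, ModularForm.val_heckeDiagMatrix hl.ne_zero]
        ext i k
        fin_cases i <;> fin_cases k <;>
          simp [Matrix.mul_apply, Fin.sum_univ_two, a, b, c, d]) rfl hlM
    simpa using this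
  have hsum : (∑ j ∈ Finset.range l, (if (l : ℤ) ∣ a + j * c then (l : ℂ) else (l : ℂ)⁻¹)) +
      (if (l : ℤ) ∣ c then (l : ℂ) else (l : ℂ)⁻¹) = (l : ℂ) + 1 := by
    by_cases hlc : (l : ℤ) ∣ c
    · have h1 : ∀ j : ℕ, ¬ (l : ℤ) ∣ a + j * c := by
        intro j hj
        have ha : (l : ℤ) ∣ a := by
          have := hj.sub (hlc.mul_left (j : ℤ))
          simpa using this
        have : (l : ℤ) ∣ 1 := by
          rw [← hdetγ]
          exact (ha.mul_right _).sub (hlc.mul_left _)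
        exact hlp.not_isUnit (isUnit_of_dvd_one this)
      simp only [h1, if_false, hlc, if_true, Finset.sum_const, Finset.card_range, nsmul_eq_mul]
      field_simp
      ring
    · have hcop : IsCoprime c (l : ℤ) := ((Prime.coprime_iff_not_dvd hlp).mpr hlc).symm
      obtain ⟨u, v, huv⟩ := hcop
      have hl0' : (l : ℤ) ≠ 0 := by exact_mod_cast hl.ne_zero
      set i : ℕ := ((-(u * a)) % l).toNat with hi
      have hi' : (i : ℤ) = (-(u * a)) % l := Int.toNat_of_nonneg (Int.emod_nonneg _ hl0')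
      have hil : i < l := by
        have : (i : ℤ) < l := by
          rw [hi']
          exact Int.emod_lt_of_pos _ (by exact_mod_cast hl.pos)
        exact_mod_cast this
      have hdi : (l : ℤ) ∣ (i : ℤ) + u * a := by
        rw [hi']
        have := (Int.dvd_self_sub_emod (x := -(u * a)) (m := (l : ℤ)))
        have h2 : (-(u * a)) % (l : ℤ) + u * a = -(-(u * a) - (-(u * a)) % (l : ℤ)) := by ring
        rw [h2]
        exact this.neg_right
      have hdvd_i : (l : ℤ) ∣ a + i * c := by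
        have : a + i * c = ((i : ℤ) + u * a) * c + v * l * a := by
          linear_combination (-a) * huv
        rw [this]
        exact (hdi.mul_right _).add (Dvd.intro_left _ (by ring : v * a * l = _))
      have huniq : ∀ j ∈ Finset.range l, ((l : ℤ) ∣ a + j * c ↔ j = i) := by
        intro j hj
        constructor
        · intro h
          have h2 : (l : ℤ) ∣ ((j : ℤ) - i) * c := by
            have := h.sub hdvd_i
            have e : a + j * c - (a + i * c) = ((j : ℤ) - i) * c := by ring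
            rwa [e] at this
          have h3 := (hlp.dvd_or_dvd h2).resolve_right hlc
          have hjl := Finset.mem_range.mp hj
          have h4 : ((j : ℤ) - i).natAbs < l := by omega
          have h5 := Int.eq_zero_of_abs_lt_dvd h3 (by
            rw [Int.abs_eq_natAbs]
            exact_mod_cast h4)
          omega
        · rintro rfl
          exact hdvd_i
      rw [Finset.sum_congr rfl (fun j hj => by rw [if_congr (huniq j hj) rfl rfl]), if_neg hlc]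
      have : ∀ j : ℕ, (if j = i then (l : ℂ) else (l : ℂ)⁻¹) =
          (if j = i then (l : ℂ) - (l : ℂ)⁻¹ else 0) + (l : ℂ)⁻¹ := by
        intro j
        split_ifs <;> ring
      simp only [this, Finset.sum_add_distrib, Finset.sum_ite_eq', Finset.mem_range, hil, if_true,
        Finset.sum_const, Finset.card_range, nsmul_eq_mul]
      field_simp
      ring
  have e : (ModularForm.heckeT 2 l (⇑f : ℍ → ℂ)) ∣[(2 : ℤ)] γ =
      (∑ j ∈ Finset.range l, ((⇑f : ℍ → ℂ) ∣[(2 : ℤ)] ModularForm.heckeMatrix l j) ∣[(2 : ℤ)] γ) +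
      ((⇑f : ℍ → ℂ) ∣[(2 : ℤ)] ModularForm.heckeDiagMatrix l) ∣[(2 : ℤ)] γ := by
    rw [ModularForm.heckeT_def, SlashAction.add_slash, SlashAction.sum_slash]
  rw [e, ← hsum, add_mul, Finset.sum_mul]
  refine Tendsto.add ?_ hD
  have := tendsto_finsetSum (Finset.range l) (fun j _ => hU j)
  refine this.congr fun τ => ?_
  rw [Finset.sum_apply]

/-- **`T_l - (l+1)` maps `M₂(Γ₀(M))` to cusp forms** (`M` squarefree). -/
theorem exists_cuspForm_heckeT_sub [NeZero M] (hM : Squarefree M) {l : ℕ} (hl : l.Prime)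
    (hlM : ¬ l ∣ M) (f : ModularForm (Gamma0 M) 2) :
    ∃ g : CuspForm (Gamma0 M) 2, (⇑g : ℍ → ℂ) =
      ModularForm.heckeT 2 l (⇑f : ℍ → ℂ) - ((l : ℂ) + 1) • (⇑f : ℍ → ℂ) := by
  set F : ModularForm (Gamma0 M) 2 := ModularForm.heckeTLin 2 hl hlM f - ((l : ℂ) + 1) • f with hF
  have hFc : (⇑F : ℍ → ℂ) = ModularForm.heckeT 2 l (⇑f : ℍ → ℂ) - ((l : ℂ) + 1) • (⇑f : ℍ → ℂ) := by
    rw [hF, FunLike.coe_sub, ModularForm.coe_heckeTLin_apply, FunLike.coe_smul]
  refine ⟨{ toFun := F, slash_action_eq' := F.slash_action_eq', holo' := F.holo',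
            zero_at_cusps' := ?_ }, hFc⟩
  intro c hc
  rw [Subgroup.IsArithmetic.isCusp_iff_isCusp_SL2Z] at hc
  rw [OnePoint.isZeroAt_iff_forall_SL2Z hc]
  intro γ _
  have h1 := tendsto_heckeT_slash hM hl hlM f γ
  have h2 := (tendsto_cuspVal f γ).const_mul ((l : ℂ) + 1)
  have h3 := h1.sub h2
  rw [sub_self] at h3
  change Tendsto ((F : ℍ → ℂ) ∣[(2 : ℤ)] γ) atImInfty (𝓝 0)
  have e : (F : ℍ → ℂ) ∣[(2 : ℤ)] γ = (ModularForm.heckeT 2 l (⇑f : ℍ → ℂ)) ∣[(2 : ℤ)] γ -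
      ((l : ℂ) + 1) • ((⇑f : ℍ → ℂ) ∣[(2 : ℤ)] γ) := by
    rw [hFc, sub_eq_add_neg, SlashAction.add_slash, SlashAction.neg_slash,
      ModularForm.SL_smul_slash, ← sub_eq_add_neg]
  rw [e]
  exact h3

end Fermat.Agent.P2.Theta
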