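import Mathlib

/-!
# Rational character sums are Galois invariant

If `∑ i, ψ (F i) = q` is rational, where `ψ` is the standard additive character of `ZMod c`, then
`∑ i, ψ (a * F i) = q` for every unit `a` modulo `c`.
-/

namespace Fermat.Agent.P2.Theta

open Polynomial

theorem stdAddChar_natCast (c : ℕ) [NeZero c] (k : ℕ) :
    (ZMod.stdAddChar (k : ZMod c) : ℂ) = (Complex.exp (2 * Real.pi * Complex.I / c)) ^ k := by
  have h := ZMod.stdAddChar_coe (N := c) (k : ℤ)
  rw [Int.cast_natCast] at h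
  rw [h, ← Complex.exp_nat_mul]
  congr 1
  push_cast
  ring

/-- Conjugation of rational character sums. -/
theorem sum_stdAddChar_unit_mul (c : ℕ) [NeZero c] {ι : Type*} (s : Finset ι)
    (F : ι → ZMod c) (q : ℚ) (h : ∑ i ∈ s, (ZMod.stdAddChar (F i) : ℂ) = q) (a : (ZMod c)ˣ) :
    ∑ i ∈ s, (ZMod.stdAddChar ((a : ZMod c) * F i) : ℂ) = q := by
  have hc : c ≠ 0 := NeZero.ne c
  set ζ : ℂ := Complex.exp (2 * Real.pi * Complex.I / c) with hζ
  have hprim : IsPrimitiveRoot ζ c := Complex.isPrimitiveRoot_exp c hc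
  have hF : ∀ i, (ZMod.stdAddChar (F i) : ℂ) = ζ ^ (F i).val := by
    intro i
    conv_lhs => rw [← ZMod.natCast_zmod_val (F i)]
    exact stdAddChar_natCast c _
  have haF : ∀ i, (ZMod.stdAddChar ((a : ZMod c) * F i) : ℂ) =
      (ζ ^ (a : ZMod c).val) ^ (F i).val := by
    intro i
    rw [← pow_mul]
    have : (a : ZMod c) * F i = (((a : ZMod c).val * (F i).val : ℕ) : ZMod c) := by
      push_cast
      rw [ZMod.natCast_zmod_val, ZMod.natCast_zmod_val]
    rw [this]
    exact stdAddChar_natCast c _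
  set P : ℚ[X] := (∑ i ∈ s, X ^ (F i).val) - C q with hP
  have hPζ : aeval ζ P = 0 := by
    rw [hP, map_sub, map_sum, aeval_C]
    simp only [map_pow, aeval_X]
    simp only [hF] at h
    rw [h]
    simp
  have hcop : (a : ZMod c).val.Coprime c := ZMod.val_coe_unit_coprime a
  have hprim' : IsPrimitiveRoot (ζ ^ (a : ZMod c).val) c := hprim.pow_of_coprime _ hcop
  have h1 : cyclotomic c ℚ = minpoly ℚ ζ := cyclotomic_eq_minpoly_rat hprim (Nat.pos_of_ne_zero hc)
  have h2 : cyclotomic c ℚ = minpoly ℚ (ζ ^ (a : ZMod c).val) :=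
    cyclotomic_eq_minpoly_rat hprim' (Nat.pos_of_ne_zero hc)
  have hdvd : minpoly ℚ ζ ∣ P := minpoly.dvd ℚ ζ hPζ
  rw [← h1, h2] at hdvd
  have hz : aeval (ζ ^ (a : ZMod c).val) P = 0 := by
    obtain ⟨R, hR⟩ := hdvd
    rw [hR, map_mul, minpoly.aeval, zero_mul]
  rw [hP, map_sub, map_sum, aeval_C] at hz
  simp only [map_pow, aeval_X] at hz
  simp only [haF]
  rw [sub_eq_zero] at hz
  rw [hz]
  simp

end Fermat.Agent.P2.Theta
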