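import Fermat.Agent.LT.I.Poisson

/-!
# Fourier transform of Gaussians in four variables
-/

set_option autoImplicit false

open Matrix MeasureTheory Complex Fermat.Agent.LT.I
open scoped Real

noncomputable section

namespace Fermat.Agent.P2.Theta

/-- `½ xᵀ S x` -/
def QR (S : Matrix (Fin 4) (Fin 4) ℝ) (x : Fin 4 → ℝ) : ℝ := (x ⬝ᵥ S *ᵥ x) / 2

/-- `e(Q(x) τ)` -/
def gauss (S : Matrix (Fin 4) (Fin 4) ℝ) (τ : ℂ) (x : Fin 4 → ℝ) : ℂ :=
  cexp (2 * π * I * ((QR S x : ℝ) : ℂ) * τ)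

theorem norm_gauss (S : Matrix (Fin 4) (Fin 4) ℝ) (τ : ℂ) (x : Fin 4 → ℝ) :
    ‖gauss S τ x‖ = Real.exp (-(2 * π * τ.im * QR S x)) := by
  rw [gauss, Complex.norm_exp]
  congr 1
  have : (2 * π * I * ((QR S x : ℝ) : ℂ) * τ) = ((2 * π * QR S x : ℝ) : ℂ) * (I * τ) := by
    push_cast; ring
  rw [this, Complex.re_ofReal_mul]
  simp
  ring

theorem continuous_QR (S : Matrix (Fin 4) (Fin 4) ℝ) : Continuous (QR S) := by
  unfold QR
  fun_prop

theorem continuous_gauss (S : Matrix (Fin 4) (Fin 4) ℝ) (τ : ℂ) : Continuous (gauss S τ) := by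
  unfold gauss
  have := continuous_QR S
  fun_prop

open scoped MatrixOrder in
theorem exists_sqrt {S : Matrix (Fin 4) (Fin 4) ℝ} (hS : S.PosDef) :
    ∃ B : Matrix (Fin 4) (Fin 4) ℝ, Bᵀ * B = S := by
  have h0 : 0 ≤ S := hS.posSemidef.nonneg
  have h1 : (CFC.sqrt S)ᴴ = CFC.sqrt S := (CFC.sqrt_nonneg S).posSemidef.isHermitian
  rw [conjTranspose_eq_transpose_of_trivial] at h1
  exact ⟨CFC.sqrt S, by rw [h1, CFC.sqrt_mul_sqrt_self S h0]⟩

theorem integral_comp_mulVec {B : Matrix (Fin 4) (Fin 4) ℝ} (hB : B.det ≠ 0)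
    {G : (Fin 4 → ℝ) → ℂ} (hG : Continuous G) :
    ∫ x, G (B *ᵥ x) = (|(B.det)⁻¹| : ℝ) * ∫ y, G y := by
  have h := Real.map_matrix_volume_pi_eq_smul_volume_pi hB
  have hc : Continuous (toLin' B) := LinearMap.continuous_of_finiteDimensional _
  have h1 : ∫ y, G y ∂(Measure.map (toLin' B) volume) = ∫ x, G (toLin' B x) :=
    integral_map hc.measurable.aemeasurable hG.aestronglyMeasurable
  rw [h, integral_smul_measure] at h1
  rw [ENNReal.toReal_ofReal (abs_nonneg _)] at h1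
  simp only [toLin'_apply] at h1
  rw [← h1, Complex.real_smul]

theorem ft_gauss {S : Matrix (Fin 4) (Fin 4) ℝ} (hS : S.PosDef) {τ : ℂ} (hτ : 0 < τ.im)
    (m : Fin 4 → ℤ) :
    ft (gauss S τ) m = -(τ ^ 2 * (√S.det : ℝ))⁻¹ * gauss S⁻¹ (-1 / τ) (zv m) := by
  obtain ⟨B, hB⟩ := exists_sqrt hS
  have hdS : S.det ≠ 0 := hS.det_pos.ne'
  have hdet : S.det = B.det ^ 2 := by rw [← hB, det_mul, det_transpose, sq]
  have hdB : B.det ≠ 0 := by
    intro h; rw [hdet, h] at hdS; simp at hdS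
  have hτ0 : τ ≠ 0 := by rintro rfl; simp at hτ
  have hu : IsUnit B.det := isUnit_iff_ne_zero.mpr hdB
  set c : Fin 4 → ℝ := (B⁻¹)ᵀ *ᵥ (zv m) with hc
  set b : ℂ := -(π * I * τ) with hb
  have hb0 : 0 < b.re := by
    rw [hb]; simp
    positivity
  set G : (Fin 4 → ℝ) → ℂ := fun y =>
    cexp (-b * ∑ i, (y i : ℂ) ^ 2 + ∑ i, (-2 * π * I * c i) * y i) with hG
  have hGc : Continuous G := by rw [hG]; fun_prop
  have key : ∀ x : Fin 4 → ℝ, ex (-m) x * gauss S τ x = G (B *ᵥ x) := by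
    intro x
    rw [hG, ex, gauss, ← Complex.exp_add]
    simp only
    congr 1
    have h1 : QR S x = (∑ i, ((B *ᵥ x) i) ^ 2) / 2 := by
      rw [QR, ← hB, ← mulVec_mulVec, dotProduct_mulVec, vecMul_transpose]
      congr 1
      simp only [dotProduct, sq]
    have h2 : ∑ i, (zv m) i * x i = ∑ i, c i * (B *ᵥ x) i := by
      have : c ⬝ᵥ (B *ᵥ x) = zv m ⬝ᵥ x := by
        rw [hc, mulVec_transpose, dotProduct_mulVec, vecMul_vecMul, nonsing_inv_mul _ hu, vecMul_one]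
      exact this.symm
    have h3 : ∑ i, (((-m) i : ℤ) : ℂ) * (x i : ℂ) = -((∑ i, (zv m) i * x i : ℝ) : ℂ) := by
      push_cast
      rw [← Finset.sum_neg_distrib]
      refine Finset.sum_congr rfl fun i _ => ?_
      simp [zv]
    rw [h3, h2, h1, hb]
    push_cast
    simp only [mul_assoc]
    rw [← Finset.mul_sum]
    simp only [← Finset.mul_sum]
    ring
  have h1 : ft (gauss S τ) m = ∫ x, G (B *ᵥ x) := by
    unfold ft
    exact integral_congr_ae (Filter.Eventually.of_forall key)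
  rw [h1, integral_comp_mulVec hdB hGc]
  have h2 := GaussianFourier.integral_cexp_neg_mul_sum_add hb0 (fun i => -2 * π * I * (c i : ℂ))
  rw [hG]
  simp only
  rw [h2]
  have h3 : √S.det = |B.det| := by rw [hdet, Real.sqrt_sq_eq_abs]
  have h4 : QR S⁻¹ (zv m) = (∑ i, (c i) ^ 2) / 2 := by
    have h5 : (zv m) ⬝ᵥ S⁻¹ *ᵥ (zv m) = c ⬝ᵥ c := by
      have e : S⁻¹ = B⁻¹ * (B⁻¹)ᵀ := by
        rw [← hB, Matrix.mul_inv_rev, transpose_nonsing_inv]
      rw [e, ← mulVec_mulVec, dotProduct_mulVec, ← mulVec_transpose]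
    rw [QR, h5]
    simp only [dotProduct, sq]
  rw [gauss, h4, h3]
  have h5 : ((Fintype.card (Fin 4) : ℕ) : ℂ) / 2 = ((2 : ℕ) : ℂ) := by
    simp; norm_num
  rw [h5, Complex.cpow_natCast]
  have h6 : (π : ℂ) ≠ 0 := by exact_mod_cast Real.pi_ne_zero
  have h7 : (∑ i, (-2 * π * I * (c i : ℂ)) ^ 2) / (4 * b) =
      2 * π * I * (((∑ i, (c i) ^ 2) / 2 : ℝ) : ℂ) * (-1 / τ) := by
    have : ∑ i, (-2 * π * I * (c i : ℂ)) ^ 2 = -(4 * π ^ 2 * ∑ i, (c i : ℂ) ^ 2) := by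
      rw [Finset.mul_sum, ← Finset.sum_neg_distrib]
      refine Finset.sum_congr rfl fun i _ => ?_
      ring_nf
      rw [Complex.I_sq]; ring
    rw [this, hb]
    push_cast
    field_simp
    ring_nf
    rw [Complex.I_sq]; ring
  rw [h7, abs_inv]
  have h8 : ((|B.det| : ℝ) : ℂ) ≠ 0 := by
    exact_mod_cast (abs_pos.mpr hdB).ne'
  have h9 : (π / b) ^ 2 = -(τ ^ 2)⁻¹ := by
    rw [hb]
    field_simp
    rw [Complex.I_sq]
    norm_num
  rw [h9]
  push_cast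
  rw [mul_inv]
  ring

end Fermat.Agent.P2.Theta
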