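import Fermat.Agent.P2.Theta.Level

/-!
# `Γ₀(M)`-invariance of theta series
-/

set_option autoImplicit false

open Matrix Complex Fermat.Agent.LT.I UpperHalfPlane Filter Topology
open scoped Real MatrixGroups ModularForm

noncomputable section

namespace Fermat.Agent.P2.Theta

variable {A A' : Matrix (Fin 4) (Fin 4) ℤ} {M : ℕ}

theorem det_toR (A : Matrix (Fin 4) (Fin 4) ℤ) : (toR A).det = ((A.det : ℤ) : ℝ) :=
  ((Int.castRingHom ℝ).map_det A).symm

theorem sqrt_det {s : ℕ} (hs : A.det = (s : ℤ) ^ 2) : √(toR A).det = s := by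
  rw [det_toR, hs]
  push_cast
  rw [Real.sqrt_sq (by positivity)]

theorem slash_T_zpow (f : ℍ → ℂ) (n : ℤ) (τ : ℍ) :
    (f ∣[(2 : ℤ)] (ModularGroup.T ^ n)) τ = f ((n : ℝ) +ᵥ τ) := by
  rw [ModularForm.SL_slash_apply, UpperHalfPlane.modular_T_zpow_smul]
  rw [ModularGroup.denom_apply, ModularGroup.coe_T_zpow]
  simp

theorem theta_vadd (_h : EvenForm A) (n : ℤ) (τ : ℍ) : theta A ((n : ℝ) +ᵥ τ) = theta A τ := by
  rw [theta, theta]
  refine tsum_congr fun x => ?_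
  have : 2 * π * Complex.I * (qZ A x : ℂ) * (((n : ℝ) +ᵥ τ : ℍ) : ℂ) =
      2 * π * Complex.I * (qZ A x : ℂ) * τ + ((qZ A x * n : ℤ) : ℂ) * (2 * π * Complex.I) := by
    rw [UpperHalfPlane.coe_vadd]
    push_cast
    ring
  rw [this, Complex.exp_add, Complex.exp_int_mul_two_pi_mul_I, mul_one]

theorem slash_neg (f : ℍ → ℂ) (γ : SL(2, ℤ)) : f ∣[(2 : ℤ)] (-γ) = f ∣[(2 : ℤ)] γ := by
  funext τ
  rw [ModularForm.SL_slash_apply, ModularForm.SL_slash_apply, ModularGroup.SL_neg_smul]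
  congr 1
  rw [ModularGroup.denom_apply, ModularGroup.denom_apply]
  have : ((-γ) 1 0 : ℤ) = -(γ 1 0) := by simp
  have h2 : ((-γ) 1 1 : ℤ) = -(γ 1 1) := by simp
  rw [this, h2]
  have : (((-(γ 1 0) : ℤ) : ℂ) * τ + ((-(γ 1 1) : ℤ) : ℂ)) = -((γ 1 0 : ℤ) * τ + (γ 1 1 : ℤ)) := by
    push_cast; ring
  rw [this, Even.neg_zpow (by decide)]

/-- invariance for `c = 0` -/
theorem theta_slash_zero (h : EvenForm A) {γ : SL(2, ℤ)} (hc : γ 1 0 = 0) :
    theta A ∣[(2 : ℤ)] γ = theta A := by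
  funext τ
  obtain ⟨n, hn⟩ := ModularGroup.exists_eq_T_zpow_of_c_eq_zero hc
  rw [ModularForm.SL_slash_apply, hn, UpperHalfPlane.modular_T_zpow_smul, theta_vadd h]
  have hdet := γ.det_coe
  rw [Matrix.det_fin_two, hc, mul_zero, sub_zero] at hdet
  have hd : (γ 1 1 : ℤ) = 1 ∨ (γ 1 1 : ℤ) = -1 := by
    have : IsUnit (γ 1 1 : ℤ) := IsUnit.of_mul_eq_one (γ 0 0) (by rw [mul_comm]; exact hdet)
    exact Int.isUnit_iff.mp this
  have : UpperHalfPlane.denom γ τ ^ (-(2 : ℤ)) = 1 := by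
    rw [ModularGroup.denom_apply, hc]
    rcases hd with hd | hd <;> rw [hd] <;> simp
  rw [this, mul_one]

/-- `θ|S` is the dual theta series. -/
theorem hasSum_theta_S (h : EvenForm A) (τ : ℍ) :
    HasSum (fun m : Fin 4 → ℤ => -(1 / ((√(toR A).det : ℝ) : ℂ)) * gauss (toR A)⁻¹ τ (zv m))
      ((theta A ∣[(2 : ℤ)] ModularGroup.S) τ) := by
  have h1 := hasSum_theta_slash h ModularGroup.S (c := 1) (by simp [ModularGroup.S]) τ
  have h2 : ∀ m, GSm A ((ModularGroup.S : SL(2, ℤ)) 0 0) 1 m = 1 := by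
    intro m
    have h0 : ∀ z : ZMod 1, (ZMod.stdAddChar z : ℂ) = 1 := fun z => by
      rw [Subsingleton.elim z 0, AddChar.map_zero_eq_one]
    rw [GSm, Fintype.sum_unique, h0]
  have h3 : ∀ m : Fin 4 → ℤ, -(1 / (((1 : ℕ) : ℂ) ^ 2 * (√(toR A).det : ℝ))) *
      gauss (toR A)⁻¹ (τ + (((ModularGroup.S : SL(2, ℤ)) 1 1 : ℤ) : ℂ) / ((1 : ℕ) : ℂ)) (zv m) *
        GSm A ((ModularGroup.S : SL(2, ℤ)) 0 0) 1 m =
      -(1 / ((√(toR A).det : ℝ) : ℂ)) * gauss (toR A)⁻¹ τ (zv m) := by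
    intro m
    rw [h2 m]
    simp [ModularGroup.S]
  simp only [h3] at h1
  exact h1

theorem theta_S_T (h : EvenForm A) (hD : Dual A A' M) (n : ℤ) :
    (theta A ∣[(2 : ℤ)] ModularGroup.S) ∣[(2 : ℤ)] (ModularGroup.T ^ ((M : ℤ) * n)) =
      theta A ∣[(2 : ℤ)] ModularGroup.S := by
  funext τ
  rw [slash_T_zpow]
  have h1 := hasSum_theta_S h ((((M : ℤ) * n : ℤ) : ℝ) +ᵥ τ)
  have h2 : ∀ m : Fin 4 → ℤ, gauss (toR A)⁻¹ (((((M : ℤ) * n : ℤ) : ℝ) +ᵥ τ : ℍ) : ℂ) (zv m) =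
      gauss (toR A)⁻¹ τ (zv m) := by
    intro m
    rw [UpperHalfPlane.coe_vadd, ← gauss_periodic hD (τ : ℂ) n m]
    congr 1
    push_cast
    ring
  simp only [h2] at h1
  exact h1.unique (hasSum_theta_S h τ)

/-- The matrix `(1 0; c 1)`. -/
def lowS (c : ℤ) : SL(2, ℤ) := ModularGroup.S * ModularGroup.T ^ (-c) * ModularGroup.S⁻¹

theorem coe_lowS (c : ℤ) : (lowS c : Matrix (Fin 2) (Fin 2) ℤ) = !![1, 0; c, 1] := by
  rw [lowS, Matrix.SpecialLinearGroup.coe_mul, Matrix.SpecialLinearGroup.coe_mul,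
    ModularGroup.coe_T_zpow, Matrix.SpecialLinearGroup.coe_inv, ModularGroup.coe_S,
    Matrix.adjugate_fin_two_of]
  ext i j
  fin_cases i <;> fin_cases j <;> simp [Matrix.mul_apply, Fin.sum_univ_two]

theorem theta_slash_lowS (h : EvenForm A) (hD : Dual A A' M) {c : ℤ} (hMc : (M : ℤ) ∣ c) :
    theta A ∣[(2 : ℤ)] lowS c = theta A := by
  obtain ⟨k, rfl⟩ := hMc
  have h1 := theta_S_T h hD (-k)
  rw [mul_neg] at h1
  rw [lowS, SlashAction.slash_mul, SlashAction.slash_mul, h1, ← SlashAction.slash_mul,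
    mul_inv_cancel, SlashAction.slash_one]

/-- Evaluation of the Gauss sum with `a = 1`. -/
theorem GS_one (h : EvenForm A) (hD : Dual A A' M) {c : ℕ} [NeZero c] (hMc : M ∣ c) :
    GS A 1 c = -((c : ℂ) ^ 2 * (√(toR A).det : ℝ)) := by
  have h1 : (lowS c 1 0 : ℤ) = c := by rw [coe_lowS]; rfl
  have h2 : (lowS c 0 0 : ℤ) = 1 := by rw [coe_lowS]; rfl
  have h3 := theta_slash_of_dvd h hD (lowS c) (c := c) h1 hMc
  rw [theta_slash_lowS h hD (by exact_mod_cast hMc), h2] at h3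
  have h4 := tendsto_theta h
  have h5 : Tendsto (theta A) atImInfty
      (𝓝 ((-(1 / ((c : ℂ) ^ 2 * (√(toR A).det : ℝ))) * GS A 1 c) • 1)) := by
    rw [h3]
    exact (tendsto_theta h).const_smul _
  have h6 := tendsto_nhds_unique h4 h5
  have hc0 : (c : ℂ) ≠ 0 := by exact_mod_cast NeZero.ne c
  have hd0 : ((√(toR A).det : ℝ) : ℂ) ≠ 0 := by
    exact_mod_cast (Real.sqrt_pos.mpr h.pos.det_pos).ne'
  rw [smul_eq_mul, mul_one] at h6
  field_simp at h6
  rw [h6]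
  ring

/-- Evaluation of the Gauss sum for a unit `a`. -/
theorem GS_unit (h : EvenForm A) (hD : Dual A A' M) {s : ℕ} (hs : A.det = (s : ℤ) ^ 2) {c : ℕ}
    [NeZero c] (hMc : M ∣ c) {a : ℤ} (ha : IsUnit (a : ZMod c)) :
    GS A a c = -((c : ℂ) ^ 2 * s) := by
  have hdet : √(toR A).det = s := sqrt_det hs
  have h1 := GS_one h hD (c := c) hMc
  rw [hdet] at h1
  have h2 : ∑ r : Fin 4 → ZMod c, (ZMod.stdAddChar (qc A c r) : ℂ) =
      ((-((c : ℚ) ^ 2 * s) : ℚ) : ℂ) := by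
    have h3 : GS A 1 c = ∑ r : Fin 4 → ZMod c, (ZMod.stdAddChar (qc A c r) : ℂ) := by
      simp [GS]
    rw [← h3, h1]
    push_cast
    rfl
  have h4 := sum_stdAddChar_unit_mul c Finset.univ (qc A c) _ h2 ha.unit
  rw [GS]
  simp only [IsUnit.unit_spec] at h4
  rw [h4]
  push_cast
  rfl

/-- **Modularity of quaternary theta series of square discriminant.** -/
theorem theta_slash_Gamma0 (h : EvenForm A) (hD : Dual A A' M) {s : ℕ}
    (hs : A.det = (s : ℤ) ^ 2) {γ : SL(2, ℤ)} (hγ : (M : ℤ) ∣ γ 1 0) :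
    theta A ∣[(2 : ℤ)] γ = theta A := by
  have hs0 : (s : ℂ) ≠ 0 := by
    intro h0
    have h1 : s = 0 := by exact_mod_cast h0
    have h2 := det_toR A
    have h3 := h.pos.det_pos
    rw [h2, hs, h1] at h3
    simp at h3
  have hdet : √(toR A).det = s := sqrt_det hs
  have key : ∀ (γ : SL(2, ℤ)), (M : ℤ) ∣ γ 1 0 → 0 < γ 1 0 → theta A ∣[(2 : ℤ)] γ = theta A := by
    intro γ hγ hpos
    obtain ⟨c, hc⟩ := Int.eq_ofNat_of_zero_le hpos.le
    have hc0 : c ≠ 0 := by rintro rfl; simp [hc] at hpos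
    have : NeZero c := ⟨hc0⟩
    have hMc : M ∣ c := by
      rw [hc] at hγ
      exact_mod_cast hγ
    have ha : IsUnit ((γ 0 0 : ℤ) : ZMod c) := by
      have hdet := γ.det_coe
      rw [Matrix.det_fin_two, hc] at hdet
      have := congrArg (fun n : ℤ => (n : ZMod c)) hdet
      push_cast at this
      rw [CharP.cast_eq_zero, mul_zero, sub_zero] at this
      exact IsUnit.of_mul_eq_one _ this
    rw [theta_slash_of_dvd h hD γ hc hMc, GS_unit h hD hs hMc ha, hdet]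
    have hcc : (c : ℂ) ≠ 0 := by exact_mod_cast hc0
    have : -(1 / ((c : ℂ) ^ 2 * (((s : ℝ) : ℝ) : ℂ))) * -((c : ℂ) ^ 2 * s) = 1 := by
      push_cast
      field_simp
    rw [this, one_smul]
  rcases lt_trichotomy (γ 1 0) 0 with h1 | h1 | h1
  · rw [← slash_neg]
    refine key (-γ) ?_ ?_
    · simpa using hγ
    · simpa using h1
  · exact theta_slash_zero h h1
  · exact key γ hγ h1

end Fermat.Agent.P2.Theta
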