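import Fermat.Agent.P2.Theta.Limit
import Fermat.Agent.P2.Theta.Galois

/-!
# Theta series of level `M` and square discriminant are `Γ₀(M)`-invariant
-/

set_option autoImplicit false

open Matrix Complex Fermat.Agent.LT.I UpperHalfPlane Filter Topology
open scoped Real MatrixGroups ModularForm

noncomputable section

namespace Fermat.Agent.P2.Theta

variable {A A' : Matrix (Fin 4) (Fin 4) ℤ} {M : ℕ}

/-- `A' / M` is the dual Gram matrix, and `A'` is even. -/
structure Dual (A A' : Matrix (Fin 4) (Fin 4) ℤ) (M : ℕ) : Prop where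
  pos : 0 < M
  symm : A'.IsSymm
  even : ∀ i, Even (A' i i)
  mul : A * A' = (M : ℤ) • (1 : Matrix (Fin 4) (Fin 4) ℤ)

theorem Dual.mul' (h : EvenForm A) (hD : Dual A A' M) :
    A' * A = (M : ℤ) • (1 : Matrix (Fin 4) (Fin 4) ℤ) := by
  have h1 := congrArg transpose hD.mul
  rw [transpose_mul, h.symm.eq, hD.symm.eq, transpose_smul, transpose_one] at h1
  exact h1

theorem Dual.inv_eq (hD : Dual A A' M) : (toR A)⁻¹ = (M : ℝ)⁻¹ • toR A' := by
  have hM : (M : ℝ) ≠ 0 := by exact_mod_cast hD.pos.ne'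
  refine inv_eq_right_inv ?_
  have h1 : toR A * toR A' = (M : ℝ) • (1 : Matrix (Fin 4) (Fin 4) ℝ) := by
    have h2 := congrArg (fun B : Matrix (Fin 4) (Fin 4) ℤ => B.map (Int.castRingHom ℝ)) hD.mul
    simp only [Matrix.map_mul] at h2
    have h3 : (((M : ℤ) • (1 : Matrix (Fin 4) (Fin 4) ℤ)).map (Int.castRingHom ℝ)) =
        (M : ℝ) • (1 : Matrix (Fin 4) (Fin 4) ℝ) := by
      ext i j
      rw [map_apply, Matrix.smul_apply, Matrix.smul_apply, one_apply, one_apply]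
      split_ifs <;> simp
    rw [h3] at h2
    exact h2
  rw [Matrix.mul_smul, h1, smul_smul, inv_mul_cancel₀ hM, one_smul]

theorem QR_inv_zv (hD : Dual A A' M) (m : Fin 4 → ℤ) :
    QR (toR A)⁻¹ (zv m) = (qZ A' m : ℝ) / M := by
  have h1 := two_mul_qZ hD.symm hD.even m
  have h2 : ((m ⬝ᵥ A' *ᵥ m : ℤ) : ℝ) = zv m ⬝ᵥ toR A' *ᵥ zv m := by
    simp only [dotProduct, mulVec, zv, map_apply]
    push_cast
    rfl
  rw [hD.inv_eq, QR, smul_mulVec, dotProduct_smul, ← h2, ← h1]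
  push_cast
  rw [smul_eq_mul]
  ring

theorem gauss_periodic (hD : Dual A A' M) (τ : ℂ) (n : ℤ) (m : Fin 4 → ℤ) :
    gauss (toR A)⁻¹ (τ + (M : ℂ) * n) (zv m) = gauss (toR A)⁻¹ τ (zv m) := by
  have hM : (M : ℂ) ≠ 0 := by exact_mod_cast hD.pos.ne'
  rw [gauss, gauss, QR_inv_zv hD]
  have : 2 * π * Complex.I * (((qZ A' m : ℝ) / M : ℝ) : ℂ) * (τ + (M : ℂ) * n) =
      2 * π * Complex.I * (((qZ A' m : ℝ) / M : ℝ) : ℂ) * τ +
        ((qZ A' m * n : ℤ) : ℂ) * (2 * π * Complex.I) := by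
    push_cast
    field_simp
  rw [this, Complex.exp_add, Complex.exp_int_mul_two_pi_mul_I, mul_one]

/-- Shift of the argument of the form modulo `c`. -/
theorem qc_add (hs : A.IsSymm) (he : ∀ i, Even (A i i)) (c : ℕ) [NeZero c]
    (r : Fin 4 → ZMod c) (v : Fin 4 → ℤ) :
    qc A c (r + fun i => (v i : ZMod c)) =
      qc A c r + ((qZ A v : ℤ) : ZMod c) + ∑ i, ((A *ᵥ v) i : ZMod c) * r i := by
  set x : Fin 4 → ℤ := fun i => ((r i).val : ℤ) with hx
  have hr : r = fun i => (x i : ZMod c) := by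
    funext i
    rw [hx]
    simp
  have h1 : (r + fun i => (v i : ZMod c)) = fun i => ((x + v) i : ZMod c) := by
    funext i
    rw [Pi.add_apply, Pi.add_apply, Int.cast_add, hr]
  rw [h1, qc_intCast hs he, qZ_add hs he, hr, qc_intCast hs he]
  push_cast
  congr 1
  simp only [dotProduct]
  push_cast
  exact Finset.sum_congr rfl fun i _ => mul_comm _ _

theorem qZ_dual (hs : A.IsSymm) (he : ∀ i, Even (A i i)) (hD : Dual A A' M) (y : Fin 4 → ℤ) :
    qZ A (A' *ᵥ y) = M * qZ A' y := by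
  have h1 := two_mul_qZ hs he (A' *ᵥ y)
  have h2 := two_mul_qZ hD.symm hD.even y
  rw [mulVec_mulVec, hD.mul, smul_mulVec, one_mulVec, dotProduct_smul, dotProduct_comm, ← h2,
    smul_eq_mul] at h1
  linarith

theorem mulVec_injective (h : EvenForm A) (hD : Dual A A' M) :
    Function.Injective fun ξ : Fin 4 → ℤ => A *ᵥ ξ := by
  intro x y hxy
  simp only at hxy
  have h1 := congrArg (fun z => A' *ᵥ z) hxy
  simp only [mulVec_mulVec, hD.mul' h, smul_mulVec, one_mulVec] at h1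
  have hM : (M : ℤ) ≠ 0 := by exact_mod_cast hD.pos.ne'
  funext i
  have h2 := congrFun h1 i
  simp only [Pi.smul_apply, smul_eq_mul] at h2
  exact mul_left_cancel₀ hM h2

/-- The Gauss sums vanish off the lattice. -/
theorem exists_of_GSm_ne_zero (h : EvenForm A) (hD : Dual A A' M) (a : ℤ) {c : ℕ} [NeZero c]
    (hMc : M ∣ c) {m : Fin 4 → ℤ} (hm : GSm A a c m ≠ 0) : ∃ ξ, m = A *ᵥ ξ := by
  obtain ⟨k, hk⟩ := hMc
  have hM : (M : ℤ) ≠ 0 := by exact_mod_cast hD.pos.ne'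
  have hk0 : (k : ℤ) ≠ 0 := by
    rintro h0
    have : k = 0 := by exact_mod_cast h0
    rw [this, mul_zero] at hk
    exact NeZero.ne c hk
  have key : ∀ y : Fin 4 → ℤ, (M : ℤ) ∣ m ⬝ᵥ A' *ᵥ y := by
    intro y
    set v : Fin 4 → ℤ := (k : ℤ) • (A' *ᵥ y) with hv
    have hAv : A *ᵥ v = (c : ℤ) • y := by
      rw [hv, mulVec_smul, mulVec_mulVec, hD.mul, smul_mulVec, one_mulVec, smul_smul, hk]
      push_cast
      rw [mul_comm]
    have hqv : ((qZ A v : ℤ) : ZMod c) = 0 := by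
      rw [hv, h.qZ_smul, qZ_dual h.symm h.even hD]
      have : (k : ℤ) ^ 2 * (M * qZ A' y) = (c : ℤ) * (k * qZ A' y) := by
        rw [hk]; push_cast; ring
      rw [this]
      simp
    have h1 : ∀ r : Fin 4 → ZMod c, (a : ZMod c) * qc A c (r + fun i => (v i : ZMod c)) +
        ∑ i, (m i : ZMod c) * (r + fun i => (v i : ZMod c)) i =
        ((m ⬝ᵥ v : ℤ) : ZMod c) + ((a : ZMod c) * qc A c r + ∑ i, (m i : ZMod c) * r i) := by
      intro r
      rw [qc_add h.symm h.even, hqv, hAv]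
      simp only [Pi.smul_apply, Pi.add_apply, smul_eq_mul, dotProduct]
      push_cast
      simp only [CharP.cast_eq_zero, zero_mul, Finset.sum_const_zero, add_zero, mul_add,
        Finset.sum_add_distrib]
      ring
    have h2 : GSm A a c m = ZMod.stdAddChar ((m ⬝ᵥ v : ℤ) : ZMod c) * GSm A a c m := by
      conv_lhs => rw [GSm, ← Equiv.sum_comp (Equiv.addRight (fun i => (v i : ZMod c)))]
      rw [GSm, Finset.mul_sum]
      refine Finset.sum_congr rfl fun r _ => ?_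
      rw [Equiv.coe_addRight, h1 r, AddChar.map_add_eq_mul]
    have h3 : ZMod.stdAddChar ((m ⬝ᵥ v : ℤ) : ZMod c) = 1 := by
      have : (ZMod.stdAddChar ((m ⬝ᵥ v : ℤ) : ZMod c) - 1) * GSm A a c m = 0 := by
        rw [sub_mul, one_mul, ← h2, sub_self]
      rcases mul_eq_zero.mp this with h4 | h4
      · exact sub_eq_zero.mp h4
      · exact absurd h4 hm
    have h4 : ((m ⬝ᵥ v : ℤ) : ZMod c) = 0 := by
      apply ZMod.injective_stdAddChar
      rw [h3, AddChar.map_zero_eq_one]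
    rw [ZMod.intCast_zmod_eq_zero_iff_dvd, hv, dotProduct_smul, smul_eq_mul, hk] at h4
    push_cast at h4
    rw [mul_comm (M : ℤ)] at h4
    exact Int.dvd_of_mul_dvd_mul_left hk0 h4
  have h5 : ∀ i, (M : ℤ) ∣ (A' *ᵥ m) i := by
    intro i
    have h6 := key (Pi.single i 1)
    rw [dot_symm hD.symm, single_one_dotProduct] at h6
    exact h6
  choose ξ hξ using h5
  refine ⟨ξ, ?_⟩
  have h7 : A *ᵥ (A' *ᵥ m) = (M : ℤ) • m := by
    rw [mulVec_mulVec, hD.mul, smul_mulVec, one_mulVec]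
  have h8 : A' *ᵥ m = (M : ℤ) • ξ := by
    funext i
    exact hξ i
  rw [h8, mulVec_smul] at h7
  funext i
  have h9 := congrFun h7 i
  simp only [Pi.smul_apply, smul_eq_mul] at h9
  exact (mul_left_cancel₀ hM h9).symm

/-- Completing the square. -/
theorem GSm_mulVec (h : EvenForm A) {a d : ℤ} {c : ℕ} [NeZero c]
    (had : (a * d : ZMod c) = 1) (ξ : Fin 4 → ℤ) :
    ZMod.stdAddChar ((d * qZ A ξ : ℤ) : ZMod c) * GSm A a c (A *ᵥ ξ) = GS A a c := by
  have h1 : ∀ r : Fin 4 → ZMod c,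
      (a : ZMod c) * qc A c (r + fun i => ((d • ξ) i : ZMod c)) =
        ((d * qZ A ξ : ℤ) : ZMod c) +
          ((a : ZMod c) * qc A c r + ∑ i, ((A *ᵥ ξ) i : ZMod c) * r i) := by
    intro r
    rw [qc_add h.symm h.even, h.qZ_smul, mulVec_smul]
    simp only [Pi.smul_apply, smul_eq_mul]
    push_cast
    have e1 : (a : ZMod c) * ∑ i, (d : ZMod c) * ((A *ᵥ ξ) i : ZMod c) * r i =
        (a * d : ZMod c) * ∑ i, ((A *ᵥ ξ) i : ZMod c) * r i := by
      rw [Finset.mul_sum, Finset.mul_sum]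
      refine Finset.sum_congr rfl fun i _ => ?_
      ring
    rw [mul_add, mul_add, e1, had]
    linear_combination ((d : ZMod c) * ((qZ A ξ : ℤ) : ZMod c)) * had
  rw [GS, ← Equiv.sum_comp (Equiv.addRight (fun i => ((d • ξ) i : ZMod c))), GSm, Finset.mul_sum]
  refine Finset.sum_congr rfl fun r _ => ?_
  rw [Equiv.coe_addRight, h1 r]
  exact (AddChar.map_add_eq_mul _ _ _).symm

theorem QR_inv_mulVec (h : EvenForm A) (ξ : Fin 4 → ℤ) :
    QR (toR A)⁻¹ (zv (A *ᵥ ξ)) = (qZ A ξ : ℝ) := by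
  have h1 : zv (A *ᵥ ξ) = toR A *ᵥ zv ξ := by
    funext i
    simp only [zv, mulVec, dotProduct, map_apply]
    push_cast
    rfl
  have hu : IsUnit (toR A).det := isUnit_iff_ne_zero.mpr h.pos.det_pos.ne'
  rw [← QR_zv h, QR, h1, mulVec_mulVec, nonsing_inv_mul _ hu, one_mulVec, dotProduct_comm, QR]

theorem gauss_inv_mulVec (h : EvenForm A) (τ : ℂ) (c : ℕ) [NeZero c] (d : ℤ) (ξ : Fin 4 → ℤ) :
    gauss (toR A)⁻¹ (τ + d / c) (zv (A *ᵥ ξ)) =
      ZMod.stdAddChar ((d * qZ A ξ : ℤ) : ZMod c) * gauss (toR A) τ (zv ξ) := by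
  have hc0 : (c : ℂ) ≠ 0 := by exact_mod_cast NeZero.ne c
  rw [stdAddChar_int, gauss, gauss, QR_inv_mulVec h, QR_zv h, ← Complex.exp_add]
  congr 1
  push_cast
  field_simp
  ring

/-- For `M ∣ c` the theta series is an eigenvector of `γ`. -/
theorem theta_slash_of_dvd (h : EvenForm A) (hD : Dual A A' M) (γ : SL(2, ℤ)) {c : ℕ} [NeZero c]
    (hc : γ 1 0 = c) (hMc : M ∣ c) :
    theta A ∣[(2 : ℤ)] γ =
      (-(1 / ((c : ℂ) ^ 2 * (√(toR A).det : ℝ))) * GS A (γ 0 0) c) • theta A := by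
  have had : ((γ 0 0 : ℤ) * (γ 1 1 : ℤ) : ZMod c) = 1 := by
    have hdet := γ.det_coe
    rw [Matrix.det_fin_two, hc] at hdet
    have := congrArg (fun n : ℤ => (n : ZMod c)) hdet
    push_cast at this
    rw [CharP.cast_eq_zero, mul_zero, sub_zero] at this
    exact this
  funext τ
  have h1 := hasSum_theta_slash h γ hc τ
  rw [← (mulVec_injective h hD).hasSum_iff] at h1
  · have h2 := (hasSum_theta h τ).mul_left
      (-(1 / ((c : ℂ) ^ 2 * (√(toR A).det : ℝ))) * GS A (γ 0 0) c)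
    rw [Pi.smul_apply, smul_eq_mul]
    have h3 : ∀ ξ : Fin 4 → ℤ, -(1 / ((c : ℂ) ^ 2 * (√(toR A).det : ℝ))) *
        gauss (toR A)⁻¹ (τ + (γ 1 1 : ℤ) / c) (zv (A *ᵥ ξ)) * GSm A (γ 0 0) c (A *ᵥ ξ) =
        -(1 / ((c : ℂ) ^ 2 * (√(toR A).det : ℝ))) * GS A (γ 0 0) c *
          gauss (toR A) τ (zv ξ) := by
      intro ξ
      rw [gauss_inv_mulVec h, ← GSm_mulVec h had ξ]
      ring
    simp only [Function.comp_def, h3] at h1
    exact h1.unique h2
  · intro m hm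
    have : GSm A (γ 0 0) c m = 0 := by
      by_contra hne
      obtain ⟨ξ, hξ⟩ := exists_of_GSm_ne_zero h hD _ hMc hne
      exact hm ⟨ξ, hξ.symm⟩
    rw [this, mul_zero]

end Fermat.Agent.P2.Theta
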