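import Fermat.Agent.P2.Theta.Trans

/-!
# Values of theta series at the cusps
-/

set_option autoImplicit false

open Matrix Complex Fermat.Agent.LT.I UpperHalfPlane Filter Topology
open scoped Real MatrixGroups ModularForm

noncomputable section

namespace Fermat.Agent.P2.Theta

variable {A : Matrix (Fin 4) (Fin 4) ℤ}

theorem gauss_zero (P : Matrix (Fin 4) (Fin 4) ℝ) (w : ℂ) : gauss P w (zv 0) = 1 := by
  have : zv (0 : Fin 4 → ℤ) = 0 := by funext i; simp [zv]
  rw [this, gauss, QR]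
  simp

theorem QR_pos {P : Matrix (Fin 4) (Fin 4) ℝ} (hP : P.PosDef) {m : Fin 4 → ℤ} (hm : m ≠ 0) :
    0 < QR P (zv m) := by
  have h0 : zv m ≠ 0 := by
    intro h
    apply hm
    funext i
    have := congrFun h i
    simpa [zv] using this
  have h1 := hP.dotProduct_mulVec_pos h0
  rw [QR]
  simpa using h1

/-- The constant term of a theta-like series. -/
theorem tendsto_gauss_sum {P : Matrix (Fin 4) (Fin 4) ℝ} (hP : P.PosDef)
    (G : (Fin 4 → ℤ) → ℂ) {C : ℝ} (hG : ∀ m, ‖G m‖ ≤ C) (t : ℝ) :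
    Tendsto (fun τ : ℍ => ∑' m : Fin 4 → ℤ, gauss P (τ + t) (zv m) * G m) atImInfty
      (𝓝 (G 0)) := by
  have hC : 0 ≤ C := (norm_nonneg _).trans (hG 0)
  have h1 : ∑' m : Fin 4 → ℤ, (if m = 0 then G 0 else 0) = G 0 := tsum_ite_eq 0 _
  have hI : (0 : ℝ) < (Complex.I : ℂ).im := by simp
  have him : ∀ τ : ℍ, ((τ : ℂ) + t).im = τ.im := by intro τ; simp
  rw [← h1]
  refine tendsto_tsum_of_dominated_convergence
    (bound := fun m : Fin 4 → ℤ => ‖gauss P Complex.I (zv m)‖ * C)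
    ((summable_norm_gauss hP hI).mul_right C) (fun m => ?_) ?_
  · by_cases hm : m = 0
    · subst hm
      rw [if_pos rfl]
      simp only [gauss_zero, one_mul]
      exact tendsto_const_nhds
    · rw [if_neg hm, tendsto_zero_iff_norm_tendsto_zero]
      have hq := QR_pos hP hm
      have h2 : ∀ τ : ℍ, ‖gauss P (τ + t) (zv m) * G m‖ =
          Real.exp (-(2 * π * QR P (zv m) * τ.im)) * ‖G m‖ := by
        intro τ
        rw [norm_mul, norm_gauss, him]
        congr 2
        ring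
      simp only [h2]
      have h3 : Tendsto (fun y : ℝ => Real.exp (-(2 * π * QR P (zv m) * y)) * ‖G m‖) atTop
          (𝓝 (0 * ‖G m‖)) := by
        refine Tendsto.mul_const _ ?_
        refine Real.tendsto_exp_neg_atTop_nhds_zero.comp ?_
        exact tendsto_id.const_mul_atTop (by positivity)
      rw [zero_mul] at h3
      exact h3.comp tendsto_comap
  · have h4 : ∀ᶠ τ : ℍ in atImInfty, 1 ≤ τ.im :=
      tendsto_comap.eventually (eventually_ge_atTop (1 : ℝ))
    filter_upwards [h4] with τ hτ m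
    rw [norm_mul]
    refine mul_le_mul ?_ (hG m) (norm_nonneg _) (norm_nonneg _)
    rw [norm_gauss, norm_gauss, Real.exp_le_exp, him, Complex.I_im, neg_le_neg_iff]
    have := QR_nonneg hP (zv m)
    have h5 : 0 ≤ 2 * π * QR P (zv m) := by positivity
    nlinarith

theorem norm_GSm_le (a : ℤ) (c : ℕ) [NeZero c] (m : Fin 4 → ℤ) :
    ‖GSm A a c m‖ ≤ Fintype.card (Fin 4 → ZMod c) := by
  rw [GSm]
  refine (norm_sum_le _ _).trans ?_
  have : ∀ x : ZMod c, ‖(ZMod.stdAddChar x : ℂ)‖ = 1 := by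
    intro x
    exact AddChar.norm_apply _ _
  simp only [this]
  simp

/-- The value of `θ` at the cusp `γ ∞`. -/
theorem tendsto_theta_slash (h : EvenForm A) (γ : SL(2, ℤ)) {c : ℕ} [NeZero c]
    (hc : γ 1 0 = c) :
    Tendsto (theta A ∣[(2 : ℤ)] γ) atImInfty
      (𝓝 (-(1 / ((c : ℂ) ^ 2 * (√(toR A).det : ℝ))) * GS A (γ 0 0) c)) := by
  have h1 : theta A ∣[(2 : ℤ)] γ = fun τ : ℍ => -(1 / ((c : ℂ) ^ 2 * (√(toR A).det : ℝ))) *
      ∑' m : Fin 4 → ℤ, gauss (toR A)⁻¹ (τ + ((γ 1 1 : ℤ) / c : ℝ)) (zv m) *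
        GSm A (γ 0 0) c m := by
    funext τ
    rw [← (hasSum_theta_slash h γ hc τ).tsum_eq, ← tsum_mul_left]
    refine tsum_congr fun m => ?_
    push_cast
    ring
  rw [h1, ← GSm_zero]
  exact (tendsto_gauss_sum h.pos.inv _ (norm_GSm_le _ c) _).const_mul _

theorem tendsto_theta (h : EvenForm A) : Tendsto (theta A) atImInfty (𝓝 1) := by
  have h1 := tendsto_gauss_sum h.pos (fun _ => 1) (C := 1) (by simp) 0
  refine h1.congr fun τ => ?_
  rw [theta_eq h]
  refine tsum_congr fun m => ?_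
  simp

theorem hasSum_theta (h : EvenForm A) (τ : ℍ) :
    HasSum (fun x : Fin 4 → ℤ => gauss (toR A) τ (zv x)) (theta A τ) := by
  rw [theta_eq h]
  exact (summable_gauss h.pos τ.im_pos).hasSum

end Fermat.Agent.P2.Theta
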