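import Fermat.Agent.P2.Theta.Gaussian
import Fermat.Agent.LT.I.PoissonExp

/-!
# Summability of Gaussians over lattices and Poisson summation
-/

set_option autoImplicit false

open Matrix MeasureTheory Complex Fermat.Agent.LT.I
open scoped Real

noncomputable section

namespace Fermat.Agent.P2.Theta

/-- A positive definite form dominates a multiple of the sum of squares. -/
theorem exists_lower {S : Matrix (Fin 4) (Fin 4) ℝ} (hS : S.PosDef) :
    ∃ ε : ℝ, 0 < ε ∧ ∀ x, ε * ∑ i, x i ^ 2 ≤ QR S x := by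
  obtain ⟨B, hB⟩ := exists_sqrt hS
  have hdS : S.det ≠ 0 := hS.det_pos.ne'
  have hdet : S.det = B.det ^ 2 := by rw [← hB, det_mul, det_transpose, sq]
  have hdB : B.det ≠ 0 := by
    intro h; rw [hdet, h] at hdS; simp at hdS
  have hu : IsUnit B.det := isUnit_iff_ne_zero.mpr hdB
  set C : ℝ := ∑ i, ∑ j, (B⁻¹ i j) ^ 2 with hC
  have hC0 : 0 ≤ C := Finset.sum_nonneg fun i _ => Finset.sum_nonneg fun j _ => sq_nonneg _
  refine ⟨(2 * (C + 1))⁻¹, by positivity, fun x => ?_⟩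
  have h1 : QR S x = (∑ i, ((B *ᵥ x) i) ^ 2) / 2 := by
    rw [QR, ← hB, ← mulVec_mulVec, dotProduct_mulVec, vecMul_transpose]
    congr 1
    simp only [dotProduct, sq]
  have h2 : ∀ i, x i ^ 2 ≤ (∑ j, (B⁻¹ i j) ^ 2) * ∑ j, ((B *ᵥ x) j) ^ 2 := by
    intro i
    have h3 : x i = ∑ j, B⁻¹ i j * (B *ᵥ x) j := by
      have : B⁻¹ *ᵥ (B *ᵥ x) = x := by
        rw [mulVec_mulVec, nonsing_inv_mul _ hu, one_mulVec]
      exact (congrFun this i).symm
    conv_lhs => rw [h3]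
    exact Finset.sum_mul_sq_le_sq_mul_sq _ _ _
  have h3 : ∑ i, x i ^ 2 ≤ C * ∑ j, ((B *ᵥ x) j) ^ 2 := by
    rw [hC, Finset.sum_mul]
    exact Finset.sum_le_sum fun i _ => h2 i
  have h4 : 0 ≤ ∑ j, ((B *ᵥ x) j) ^ 2 := Finset.sum_nonneg fun i _ => sq_nonneg _
  rw [h1, inv_mul_le_iff₀ (by positivity)]
  nlinarith

theorem QR_nonneg {S : Matrix (Fin 4) (Fin 4) ℝ} (hS : S.PosDef) (x : Fin 4 → ℝ) :
    0 ≤ QR S x := by
  obtain ⟨ε, hε, h⟩ := exists_lower hS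
  refine le_trans ?_ (h x)
  have : 0 ≤ ∑ i, x i ^ 2 := Finset.sum_nonneg fun i _ => sq_nonneg _
  positivity

theorem exists_gauss_bound {S : Matrix (Fin 4) (Fin 4) ℝ} (hS : S.PosDef) {τ : ℂ}
    (hτ : 0 < τ.im) :
    ∃ C c : ℝ, 0 < c ∧ ∀ x : Fin 4 → ℝ, ‖gauss S τ x‖ ≤ C * Real.exp (-(c * ∑ i, |x i|)) := by
  obtain ⟨ε, hε, h⟩ := exists_lower hS
  refine ⟨Real.exp (2 * π * τ.im * ε), 2 * π * τ.im * ε, by positivity, fun x => ?_⟩
  rw [norm_gauss, ← Real.exp_add, Real.exp_le_exp]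
  have h1 : ∑ i, |x i| ≤ ∑ i, x i ^ 2 + 1 := by
    have h2 : ∑ i, |x i| ≤ ∑ i : Fin 4, (x i ^ 2 + 1 / 4) := by
      refine Finset.sum_le_sum fun i _ => ?_
      nlinarith [sq_nonneg (|x i| - 1 / 2), sq_abs (x i)]
    refine h2.trans (le_of_eq ?_)
    rw [Finset.sum_add_distrib]
    simp
  have h3 := h x
  have h4 : 0 < 2 * π * τ.im := by positivity
  have h5 : 2 * π * τ.im * (ε * (∑ i, |x i| - 1)) ≤ 2 * π * τ.im * QR S x := by
    refine mul_le_mul_of_nonneg_left (le_trans ?_ h3) h4.le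
    exact mul_le_mul_of_nonneg_left (by linarith) hε.le
  nlinarith

theorem locBd_gauss {S : Matrix (Fin 4) (Fin 4) ℝ} (hS : S.PosDef) {τ : ℂ} (hτ : 0 < τ.im) :
    LocBd (gauss S τ) := by
  obtain ⟨C, c, hc, h⟩ := exists_gauss_bound hS hτ
  exact LocBd.of_exp hc h

theorem summable_norm_gauss {S : Matrix (Fin 4) (Fin 4) ℝ} (hS : S.PosDef) {τ : ℂ}
    (hτ : 0 < τ.im) : Summable fun m : Fin 4 → ℤ => ‖gauss S τ (zv m)‖ := by
  obtain ⟨C, c, hc, h⟩ := exists_gauss_bound hS hτ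
  refine Summable.of_nonneg_of_le (fun m => norm_nonneg _) (fun m => h (zv m)) ?_
  exact (summable_exp_pi hc).mul_left _

theorem summable_gauss {S : Matrix (Fin 4) (Fin 4) ℝ} (hS : S.PosDef) {τ : ℂ}
    (hτ : 0 < τ.im) : Summable fun m : Fin 4 → ℤ => gauss S τ (zv m) :=
  (summable_norm_gauss hS hτ).of_norm

/-- Poisson summation for a Gaussian. -/
theorem poisson_gauss {S : Matrix (Fin 4) (Fin 4) ℝ} (hS : S.PosDef) {w : ℂ} (hw : 0 < w.im)
    (v : Fin 4 → ℝ) :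
    HasSum (fun m : Fin 4 → ℤ => -(w ^ 2 / (√S.det : ℝ)) * gauss S⁻¹ w (zv m) * ex m v)
      (∑' y : Fin 4 → ℤ, gauss S (-1 / w) (v + zv y)) := by
  have hw0 : w ≠ 0 := by rintro rfl; simp at hw
  have hw1 : 0 < (-1 / w).im := by
    rw [neg_div, one_div, Complex.neg_im, Complex.inv_im]
    rw [neg_div, neg_neg]
    exact div_pos hw (Complex.normSq_pos.mpr hw0)
  have hft : ∀ m, ft (gauss S (-1 / w)) m = -(w ^ 2 / (√S.det : ℝ)) * gauss S⁻¹ w (zv m) := by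
    intro m
    rw [ft_gauss hS hw1]
    congr 2
    · field_simp
      try ring
    · field_simp
  have hs : Summable (ft (gauss S (-1 / w))) := by
    have : ft (gauss S (-1 / w)) = fun m => -(w ^ 2 / (√S.det : ℝ)) * gauss S⁻¹ w (zv m) :=
      funext hft
    rw [this]
    exact (summable_gauss hS.inv hw).mul_left _
  have h := hasSum_poisson (continuous_gauss S (-1 / w)) (locBd_gauss hS hw1) hs v
  simpa only [hft] using h

end Fermat.Agent.P2.Theta
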