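import Fermat.Agent.P2.Theta.Summ
import Fermat.Agent.P2.Theta.Def

/-!
# Transformation of quaternary theta series under `SL₂(ℤ)`
-/

set_option autoImplicit false

open Matrix Complex Fermat.Agent.LT.I UpperHalfPlane
open scoped Real MatrixGroups ModularForm

noncomputable section

namespace Fermat.Agent.P2.Theta

variable {A : Matrix (Fin 4) (Fin 4) ℤ}

theorem QR_zv (h : EvenForm A) (x : Fin 4 → ℤ) : QR (toR A) (zv x) = (qZ A x : ℝ) := by
  have h1 := h.two_mul_qZ x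
  have h2 : ((x ⬝ᵥ A *ᵥ x : ℤ) : ℝ) = zv x ⬝ᵥ toR A *ᵥ zv x := by
    simp only [dotProduct, mulVec, zv, map_apply]
    push_cast
    rfl
  rw [QR, ← h2, ← h1]
  push_cast
  ring

theorem theta_eq (h : EvenForm A) (τ : ℍ) :
    theta A τ = ∑' x : Fin 4 → ℤ, gauss (toR A) τ (zv x) := by
  rw [theta]
  refine tsum_congr fun x => ?_
  rw [gauss, QR_zv h]
  push_cast
  rfl

/-- Division with remainder on `ℤ^4`. -/
def divEquiv (c : ℕ) [NeZero c] : (Fin 4 → ZMod c) × (Fin 4 → ℤ) ≃ (Fin 4 → ℤ) where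
  toFun p i := (p.1 i).val + (c : ℤ) * p.2 i
  invFun x := (fun i => (x i : ZMod c), fun i => x i / c)
  left_inv p := by
    have hc : (c : ℤ) ≠ 0 := by exact_mod_cast NeZero.ne c
    ext i
    · simp
    · have h1 : (0 : ℤ) ≤ (p.1 i).val := by positivity
      have h2 : ((p.1 i).val : ℤ) < c := by exact_mod_cast ZMod.val_lt (p.1 i)
      simp only
      rw [Int.add_mul_ediv_left _ _ hc, Int.ediv_eq_zero_of_lt h1 h2, zero_add]
  right_inv x := by
    funext i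
    simp only [ZMod.val_intCast]
    exact Int.emod_add_mul_ediv (x i) c

theorem tsum_residues (c : ℕ) [NeZero c] {f : (Fin 4 → ℤ) → ℂ} (hf : Summable f) :
    ∑' x, f x = ∑ r : Fin 4 → ZMod c, ∑' y : Fin 4 → ℤ, f (divEquiv c (r, y)) := by
  rw [← (divEquiv c).tsum_eq f]
  have h1 : Summable fun p => f (divEquiv c p) := (divEquiv c).summable_iff.mpr hf
  rw [h1.tsum_prod, tsum_fintype]

theorem stdAddChar_int (c : ℕ) [NeZero c] (j : ℤ) :
    (ZMod.stdAddChar (j : ZMod c) : ℂ) = cexp (2 * π * Complex.I * j / c) := by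
  rw [ZMod.stdAddChar_coe]

theorem ex_div (c : ℕ) [NeZero c] (m : Fin 4 → ℤ) (r : Fin 4 → ZMod c) :
    ex m (fun i => ((r i).val : ℝ) / c) = ZMod.stdAddChar (∑ i, (m i : ZMod c) * r i) := by
  have h1 : (∑ i, (m i : ZMod c) * r i) = ((∑ i, m i * (r i).val : ℤ) : ZMod c) := by
    push_cast
    refine Finset.sum_congr rfl fun i _ => ?_
    rw [ZMod.natCast_zmod_val]
  rw [h1, stdAddChar_int, ex]
  congr 1
  push_cast
  rw [mul_div_assoc]
  congr 1
  rw [Finset.sum_div]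
  refine Finset.sum_congr rfl fun i _ => ?_
  ring

theorem gauss_residue (h : EvenForm A) (c : ℕ) [NeZero c] (a : ℤ) {w : ℂ} (hw : w ≠ 0)
    (r : Fin 4 → ZMod c) (y : Fin 4 → ℤ) :
    gauss (toR A) (a / c - 1 / (c ^ 2 * w)) (zv (divEquiv c (r, y))) =
      ZMod.stdAddChar ((a : ZMod c) * qc A c r) *
        gauss (toR A) (-1 / w) ((fun i => ((r i).val : ℝ) / c) + zv y) := by
  have hc : (c : ℂ) ≠ 0 := by exact_mod_cast NeZero.ne c
  have hcR : (c : ℝ) ≠ 0 := by exact_mod_cast NeZero.ne c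
  set x := divEquiv c (r, y) with hx
  have h1 : qc A c r = ((qZ A x : ℤ) : ZMod c) := by
    rw [← qc_intCast h.symm h.even]
    congr 1
    exact (congrArg Prod.fst ((divEquiv c).symm_apply_apply (r, y))).symm
  have h2 : (fun i => ((r i).val : ℝ) / c) + zv y = (c : ℝ)⁻¹ • zv x := by
    funext i
    simp only [hx, divEquiv, zv, Pi.add_apply, Pi.smul_apply, Equiv.coe_fn_mk, smul_eq_mul]
    push_cast
    field_simp
  have h3 : QR (toR A) ((c : ℝ)⁻¹ • zv x) = (qZ A x : ℝ) / c ^ 2 := by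
    rw [QR, mulVec_smul, dotProduct_smul, smul_dotProduct, ← QR_zv h, QR]
    simp only [smul_eq_mul]
    field_simp
  have h4 : (a : ZMod c) * qc A c r = ((a * qZ A x : ℤ) : ZMod c) := by
    rw [h1]; push_cast; rfl
  rw [h2, h4, stdAddChar_int, gauss, gauss, h3, QR_zv h, ← Complex.exp_add]
  congr 1
  push_cast
  field_simp
  ring

/-- Formula for `θ(γτ)` -/
theorem hasSum_theta_smul (h : EvenForm A) (c : ℕ) [NeZero c] (a d : ℤ) {τ σ : ℍ}
    (hσ : (σ : ℂ) = a / c - 1 / (c ^ 2 * (τ + d / c))) :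
    HasSum (fun m : Fin 4 → ℤ => -((τ + d / c : ℂ) ^ 2 / (√(toR A).det : ℝ)) *
      gauss (toR A)⁻¹ (τ + d / c) (zv m) * GSm A a c m) (theta A σ) := by
  set w : ℂ := τ + d / c with hw
  have hc : (c : ℂ) ≠ 0 := by exact_mod_cast NeZero.ne c
  have hwim : 0 < w.im := by
    rw [hw, Complex.add_im]
    have : ((d : ℂ) / c).im = 0 := by
      have : ((d : ℂ) / c) = ((d / c : ℝ) : ℂ) := by push_cast; rfl
      rw [this, Complex.ofReal_im]
    rw [this, add_zero]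
    exact τ.im_pos
  have hw0 : w ≠ 0 := by intro h; rw [h] at hwim; simp at hwim
  have h1 : theta A σ = ∑ r : Fin 4 → ZMod c, ∑' y : Fin 4 → ℤ,
      gauss (toR A) σ (zv (divEquiv c (r, y))) := by
    rw [theta_eq h]
    exact tsum_residues c (summable_gauss h.pos σ.im_pos)
  rw [h1]
  have h2 : ∀ r : Fin 4 → ZMod c, ∑' y : Fin 4 → ℤ, gauss (toR A) σ (zv (divEquiv c (r, y))) =
      ZMod.stdAddChar ((a : ZMod c) * qc A c r) * ∑' y : Fin 4 → ℤ,
        gauss (toR A) (-1 / w) ((fun i => ((r i).val : ℝ) / c) + zv y) := by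
    intro r
    rw [← tsum_mul_left]
    refine tsum_congr fun y => ?_
    rw [hσ]
    exact gauss_residue h c a hw0 r y
  have h3 : ∀ r : Fin 4 → ZMod c, HasSum (fun m : Fin 4 → ℤ =>
      -(w ^ 2 / (√(toR A).det : ℝ)) * gauss (toR A)⁻¹ w (zv m) *
        ZMod.stdAddChar ((a : ZMod c) * qc A c r + ∑ i, (m i : ZMod c) * r i))
      (∑' y : Fin 4 → ℤ, gauss (toR A) σ (zv (divEquiv c (r, y)))) := by
    intro r
    rw [h2 r]
    have h4 := (poisson_gauss h.pos hwim (fun i => ((r i).val : ℝ) / c)).mul_left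
      (ZMod.stdAddChar ((a : ZMod c) * qc A c r))
    have e : (fun m : Fin 4 → ℤ => -(w ^ 2 / (√(toR A).det : ℝ)) * gauss (toR A)⁻¹ w (zv m) *
        ZMod.stdAddChar ((a : ZMod c) * qc A c r + ∑ i, (m i : ZMod c) * r i)) =
        fun m : Fin 4 → ℤ => ZMod.stdAddChar ((a : ZMod c) * qc A c r) *
          (-(w ^ 2 / (√(toR A).det : ℝ)) * gauss (toR A)⁻¹ w (zv m) *
            ex m (fun i => ((r i).val : ℝ) / c)) := by
      funext m
      rw [ex_div, AddChar.map_add_eq_mul]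
      ring
    rw [e]
    exact h4
  have h5 := hasSum_sum (s := Finset.univ) fun r _ => h3 r
  have e : (fun m : Fin 4 → ℤ => -(w ^ 2 / (√(toR A).det : ℝ)) * gauss (toR A)⁻¹ w (zv m) *
      GSm A a c m) = fun m : Fin 4 → ℤ => ∑ r : Fin 4 → ZMod c,
        -(w ^ 2 / (√(toR A).det : ℝ)) * gauss (toR A)⁻¹ w (zv m) *
          ZMod.stdAddChar ((a : ZMod c) * qc A c r + ∑ i, (m i : ZMod c) * r i) := by
    funext m
    rw [GSm, Finset.mul_sum]
  rw [e]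
  exact h5

theorem SL_smul_eq (γ : SL(2, ℤ)) {c : ℕ} [NeZero c] (hc : γ 1 0 = c) (τ : ℍ) :
    ((γ • τ : ℍ) : ℂ) = (γ 0 0 : ℤ) / c - 1 / (c ^ 2 * (τ + (γ 1 1 : ℤ) / c)) := by
  have hc0 : (c : ℂ) ≠ 0 := by exact_mod_cast NeZero.ne c
  have hdet := γ.det_coe
  rw [Matrix.det_fin_two] at hdet
  rw [hc] at hdet
  have hdet' : ((γ 0 0 : ℤ) : ℂ) * (γ 1 1 : ℤ) - (γ 0 1 : ℤ) * c = 1 := by exact_mod_cast hdet
  have hden : (c : ℂ) * τ + (γ 1 1 : ℤ) ≠ 0 := by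
    have := UpperHalfPlane.denom_ne_zero γ τ
    rw [ModularGroup.denom_apply, hc] at this
    exact_mod_cast this
  have hw : ((τ : ℂ) + (γ 1 1 : ℤ) / c) ≠ 0 := by
    intro h0
    apply hden
    have : (c : ℂ) * τ + (γ 1 1 : ℤ) = c * ((τ : ℂ) + (γ 1 1 : ℤ) / c) := by field_simp
    rw [this, h0, mul_zero]
  rw [UpperHalfPlane.coe_specialLinearGroup_apply]
  simp only [algebraMap_int_eq, eq_intCast, Complex.ofReal_intCast]
  rw [hc]
  rw [Int.cast_natCast]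
  have e1 : ((γ 0 0 : ℤ) : ℂ) / c - 1 / (c ^ 2 * (τ + (γ 1 1 : ℤ) / c)) =
      ((γ 0 0 : ℤ) : ℂ) / c - 1 / (c * (c * τ + (γ 1 1 : ℤ))) := by
    congr 2
    field_simp
  rw [e1, div_eq_iff hden]
  generalize hW : (c : ℂ) * τ + (γ 1 1 : ℤ) = W at *
  have hWτ : (τ : ℂ) = (W - (γ 1 1 : ℤ)) / c := by rw [← hW]; field_simp; ring
  rw [hWτ]
  field_simp
  linear_combination -hdet'

/-- Transformation formula for the theta series. -/
theorem hasSum_theta_slash (h : EvenForm A) (γ : SL(2, ℤ)) {c : ℕ} [NeZero c]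
    (hc : γ 1 0 = c) (τ : ℍ) :
    HasSum (fun m : Fin 4 → ℤ => -(1 / ((c : ℂ) ^ 2 * (√(toR A).det : ℝ))) *
      gauss (toR A)⁻¹ (τ + (γ 1 1 : ℤ) / c) (zv m) * GSm A (γ 0 0) c m)
      ((theta A ∣[(2 : ℤ)] γ) τ) := by
  have hc0 : (c : ℂ) ≠ 0 := by exact_mod_cast NeZero.ne c
  have h1 := hasSum_theta_smul h c (γ 0 0) (γ 1 1) (τ := τ) (SL_smul_eq γ hc τ)
  have h2 := h1.mul_right ((UpperHalfPlane.denom γ τ) ^ (-(2 : ℤ)))
  rw [← ModularForm.SL_slash_apply] at h2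
  have hd : UpperHalfPlane.denom γ τ = c * ((τ : ℂ) + (γ 1 1 : ℤ) / c) := by
    rw [ModularGroup.denom_apply, hc]
    field_simp
    push_cast
    ring
  have hw : ((τ : ℂ) + (γ 1 1 : ℤ) / c) ≠ 0 := by
    intro h0
    have := UpperHalfPlane.denom_ne_zero γ τ
    rw [hd, h0, mul_zero] at this
    exact this rfl
  have e : (fun m : Fin 4 → ℤ => -(1 / ((c : ℂ) ^ 2 * (√(toR A).det : ℝ))) *
      gauss (toR A)⁻¹ (τ + (γ 1 1 : ℤ) / c) (zv m) * GSm A (γ 0 0) c m) =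
      fun m : Fin 4 → ℤ => -(((τ : ℂ) + (γ 1 1 : ℤ) / c) ^ 2 / (√(toR A).det : ℝ)) *
      gauss (toR A)⁻¹ (τ + (γ 1 1 : ℤ) / c) (zv m) * GSm A (γ 0 0) c m *
        (UpperHalfPlane.denom γ τ) ^ (-(2 : ℤ)) := by
    funext m
    rw [hd, _root_.zpow_neg]
    have : ((c : ℂ) * ((τ : ℂ) + (γ 1 1 : ℤ) / c)) ^ (2 : ℤ) =
      ((c : ℂ) * ((τ : ℂ) + (γ 1 1 : ℤ) / c)) ^ 2 := by norm_cast
    rw [this, mul_pow, mul_inv]
    have hw2 : ((τ : ℂ) + (γ 1 1 : ℤ) / c) ^ 2 ≠ 0 := pow_ne_zero _ hw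
    generalize ((τ : ℂ) + (γ 1 1 : ℤ) / c) ^ 2 = W at *
    generalize gauss (toR A)⁻¹ (τ + (γ 1 1 : ℤ) / c) (zv m) = g
    generalize GSm A (γ 0 0) c m = G
    rw [one_div, mul_inv, div_eq_mul_inv]
    field_simp
  rw [e]
  exact h2

end Fermat.Agent.P2.Theta
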