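import Fermat.Prelude.Def_CuspForm_HeckeEvalForms
import Fermat.Agent.HeckeDualityA
import Fermat.Agent.P2.Theta.EisKill
import Fermat.Agent.P2.Defs

/-!
# Transfer of Hecke relations from `S₂(Γ₀(M))` to a Brandt module

Abstract form: `V` is an abelian group with an action of the free Hecke algebra `ℤ[t_ℓ]`, with
additive functionals `b n : V →+ ℂ` which transform like `q`-expansion coefficients, and such that
`∑ b n v qⁿ` (up to the constant term) is a modular form on `Γ₀(M)` for every `v`.  Then every Hecke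
relation which holds on the subspace `{U_q = ε_q, q ∈ Q}` of `S₂(Γ₀(M))` holds on
`(t_ℓ - (ℓ + 1)) V^{Π_q = ε_q}`.
-/

set_option autoImplicit false

set_option linter.unusedSectionVars false

open UpperHalfPlane CongruenceSubgroup ModularFormClass ModularCurve

noncomputable section

namespace Fermat.Agent.P2.Theta

/-- The primes not dividing `M`. -/
def goodPrimes (M : ℕ) : Set Nat.Primes := {l | ¬ (l : ℕ) ∣ M}

/-- A *Brandt family*: functionals on a Hecke module transforming like coefficients. -/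
structure IsBrandt (M : ℕ) {V : Type*} [AddCommGroup V] [Module HeckeAlg V]
    (b : ℕ → V →+ ℂ) : Prop where
  /-- the relation for `T_ℓ`, `ℓ ∤ M` -/
  b_heckeGen : ∀ l : Nat.Primes, ¬ (l : ℕ) ∣ M → ∀ n : ℕ, 1 ≤ n → ∀ v : V,
    b n (heckeGen l • v) = b (n * l) v + if (l : ℕ) ∣ n then (l : ℂ) * b (n / l) v else 0
  /-- modularity -/
  modular : ∀ v : V, ∃ F : ModularForm (Gamma0 M) 2, ∀ n : ℕ, 1 ≤ n → qCoeff F n = b n v

section

variable {M : ℕ} [NeZero M] {V : Type*} [AddCommGroup V] [Module HeckeAlg V] {b : ℕ → V →+ ℂ}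

theorem qCoeff_heckeT_modular (F : ModularForm (Gamma0 M) 2) {l : ℕ} (hl : l ≠ 0) (n : ℕ) :
    qCoeff (ModularForm.heckeT 2 l (⇑F : ℍ → ℂ)) n =
      qCoeff F (n * l) + if l ∣ n then (l : ℂ) * qCoeff F (n / l) else 0 := by
  rw [ModularFormClass.qCoeff_heckeT F (HeckeDuality.hper M) hl n, ModularForm.coeffHeckeT_apply]
  norm_num

theorem qCoeff_modular_sub_smul (F G : ModularForm (Gamma0 M) 2) (c : ℂ) (n : ℕ) :
    qCoeff ((⇑F : ℍ → ℂ) - c • (⇑G : ℍ → ℂ)) n = qCoeff F n - c * qCoeff G n := by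
  have h1 : ((⇑F : ℍ → ℂ) - c • (⇑G : ℍ → ℂ)) = ⇑(F + (-c) • G) := by
    rw [FunLike.coe_add, FunLike.coe_smul]
    funext τ
    simp [sub_eq_add_neg]
  have h2 : (⇑((-c) • G) : ℍ → ℂ) = (-c) • ⇑G := by rw [FunLike.coe_smul]
  simp only [qCoeff]
  rw [h1, FunLike.coe_add, ModularForm.qExpansion_add one_pos (HeckeDuality.hper M) F ((-c) • G), h2,
    ModularForm.qExpansion_smul one_pos (HeckeDuality.hper M) (-c) G]
  simp [sub_eq_add_neg]

/-- `(t_l - (l+1)) v` is represented by a cusp form. -/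
theorem IsBrandt.exists_cusp (hb : IsBrandt M b) (hM : Squarefree M) (l : Nat.Primes)
    (hl : ¬ (l : ℕ) ∣ M) (v : V) :
    ∃ g : CuspForm (Gamma0 M) 2, ∀ n : ℕ, 1 ≤ n →
      qCoeff g n = b n ((heckeGen l - ((l : ℕ) + 1 : HeckeAlg)) • v) := by
  obtain ⟨F, hF⟩ := hb.modular v
  obtain ⟨g, hg⟩ := exists_cuspForm_heckeT_sub hM l.2 hl F
  refine ⟨g, fun n hn => ?_⟩
  have h1 : ModularForm.heckeT 2 (l : ℕ) (⇑F : ℍ → ℂ) = ⇑(ModularForm.heckeTLin 2 l.2 hl F) := rfl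
  rw [hg, h1, qCoeff_modular_sub_smul, ← h1, qCoeff_heckeT_modular F l.2.ne_zero, hF n hn,
    hF (n * l) (Nat.mul_pos hn l.2.pos), sub_smul, map_sub, hb.b_heckeGen l hl n hn]
  have h2 : b n ((((l : ℕ) : HeckeAlg) + 1) • v) = (((l : ℕ) : ℂ) + 1) * b n v := by
    rw [add_smul, one_smul, map_add, Nat.cast_smul_eq_nsmul, map_nsmul, nsmul_eq_mul]
    ring
  rw [h2]
  by_cases hln : (l : ℕ) ∣ n
  · rw [if_pos hln, if_pos hln, hF (n / l) (Nat.div_pos (Nat.le_of_dvd hn hln) l.2.pos)]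
  · rw [if_neg hln, if_neg hln]

theorem heckeEvalForms_apply_gen (l : Nat.Primes) (hl : ¬ (l : ℕ) ∣ M)
    (g : CuspForm (Gamma0 M) 2) :
    ((CuspForm.heckeEvalForms M 2 (heckeGen l) :
      CuspForm.heckeAlgebra M 2 ∅) : Module.End ℂ (CuspForm (Gamma0 M) 2)) g =
      CuspForm.heckeTLin 2 l.2 hl g := by
  rw [CuspForm.heckeEvalForms_heckeGen_of_not_dvd hl]
  rfl

/-- compatibility of the two Hecke actions -/
theorem IsBrandt.qCoeff_eval (hb : IsBrandt M b) (x : HeckeAlg)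
    (hx : x ∈ MvPolynomial.supported ℤ (goodPrimes M)) :
    ∀ (g : CuspForm (Gamma0 M) 2) (v : V), (∀ n : ℕ, 1 ≤ n → qCoeff g n = b n v) →
      ∀ n : ℕ, 1 ≤ n → qCoeff (((CuspForm.heckeEvalForms M 2 x :
        CuspForm.heckeAlgebra M 2 ∅) : Module.End ℂ (CuspForm (Gamma0 M) 2)) g) n =
          b n (x • v) := by
  rw [MvPolynomial.supported] at hx
  induction hx using Algebra.adjoin_induction with
  | mem x hx =>
    obtain ⟨l, hl, rfl⟩ := hx
    intro g v hg n hn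
    have hl' : ¬ (l : ℕ) ∣ M := hl
    have : (MvPolynomial.X l : HeckeAlg) = heckeGen l := rfl
    rw [this, heckeEvalForms_apply_gen l hl', HeckeDuality.qc_heckeTLin, hb.b_heckeGen l hl' n hn,
      hg _ (Nat.mul_pos hn l.2.pos)]
    by_cases hln : (l : ℕ) ∣ n
    · rw [if_pos hln, if_pos hln, hg (n / l) (Nat.div_pos (Nat.le_of_dvd hn hln) l.2.pos)]
      norm_num
    · rw [if_neg hln, if_neg hln]
  | algebraMap r =>
    intro g v hg n hn
    have h1 : (algebraMap ℤ HeckeAlg r) • v = r • v := algebraMap_smul HeckeAlg r v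
    have h2 : ((CuspForm.heckeEvalForms M 2 (algebraMap ℤ HeckeAlg r) :
        CuspForm.heckeAlgebra M 2 ∅) : Module.End ℂ (CuspForm (Gamma0 M) 2)) g = r • g := by
      rw [MvPolynomial.algebraMap_eq, CuspForm.heckeEvalForms_C]
      rfl
    rw [h1, h2, HeckeDuality.qc_zsmul, map_zsmul, hg n hn, zsmul_eq_mul]
  | add x y _ _ hx hy =>
    intro g v hg n hn
    rw [map_add, add_smul, map_add, ← hx g v hg n hn, ← hy g v hg n hn]
    exact HeckeDuality.qc_add _ _ n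
  | mul x y _ _ hx hy =>
    intro g v hg n hn
    rw [map_mul, mul_smul]
    exact hx _ (y • v) (hy g v hg) n hn

/-- **Transfer theorem**. -/
theorem IsBrandt.transfer (hb : IsBrandt M b) (hM : Squarefree M)
    {ι : Type*} (Q : ι → ℕ) (hQM : ∀ i, Q i ∣ M) (hQp : ∀ i, (Q i).Prime) (ε : ι → ℤ)
    (W : ι → V →+ V)
    (hW : ∀ i, ∀ n : ℕ, 1 ≤ n → ∀ v, b n (W i v) = b (n * Q i) v)
    (hcomm : ∀ i, ∀ l : Nat.Primes, ¬ (l : ℕ) ∣ M → ∀ v, W i (heckeGen l • v) =
      heckeGen l • W i v)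
    (x : HeckeAlg) (hx : x ∈ MvPolynomial.supported ℤ (goodPrimes M))
    (hkill : ∀ f : CuspForm (Gamma0 M) 2,
      (∀ i, CuspForm.heckeULin 2 (hQM i) f = (ε i : ℂ) • f) →
      ((CuspForm.heckeEvalForms M 2 x : CuspForm.heckeAlgebra M 2 ∅) :
        Module.End ℂ (CuspForm (Gamma0 M) 2)) f = 0)
    (l : Nat.Primes) (hl : ¬ (l : ℕ) ∣ M) (v : V) (hv : ∀ i, W i v = ε i • v)
    (n : ℕ) (hn : 1 ≤ n) :
    b n ((x * (heckeGen l - ((l : ℕ) + 1 : HeckeAlg))) • v) = 0 := by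
  obtain ⟨g, hg⟩ := hb.exists_cusp hM l hl v
  rw [mul_smul, ← hb.qCoeff_eval x hx g _ hg n hn, hkill g, HeckeDuality.qc_zero]
  intro i
  apply HeckeDuality.ext_of_qc
  intro m
  rw [HeckeDuality.qc_heckeULin (hQp i) (hQM i), HeckeDuality.qc_smul]
  rcases Nat.eq_zero_or_pos m with rfl | hm
  · rw [zero_mul, HeckeDuality.qc_apply_zero, mul_zero]
  · rw [hg _ (Nat.mul_pos hm (hQp i).pos), hg m hm, ← hW i m hm]
    have h1 : W i ((heckeGen l - ((l : ℕ) + 1 : HeckeAlg)) • v) =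
        ε i • ((heckeGen l - ((l : ℕ) + 1 : HeckeAlg)) • v) := by
      have h2 : ∀ w : V, (((l : ℕ) : HeckeAlg) + 1) • w = ((l : ℕ) + 1) • w := by
        intro w
        rw [add_smul, one_smul, Nat.cast_smul_eq_nsmul, add_nsmul, one_nsmul]
      rw [sub_smul, map_sub, hcomm i l hl, h2, map_nsmul, hv i, smul_sub,
        smul_comm (ε i) (heckeGen l) v, smul_comm (ε i) ((l : ℕ) + 1) v]
    rw [h1, map_zsmul, zsmul_eq_mul]

theorem anem_eq_supported (M : ℕ) :
    anem M = MvPolynomial.supported ℤ (goodPrimes M) := by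
  rw [anem, MvPolynomial.supported]
  congr 1
  ext t
  constructor
  · rintro ⟨l, hl, rfl⟩
    exact ⟨l, hl, rfl⟩
  · rintro ⟨l, hl, rfl⟩
    exact ⟨l, hl, rfl⟩

end

end Fermat.Agent.P2.Theta
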